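import Fermat.Agent.FurstenbergKifer.Stationary

/-!
# Uniform growth in the mean

The averages of the laws of the walk tend along subsequences to stationary measures, all of which
give the growth `γ`; hence the mean growth is uniform in the starting direction.
-/

set_option autoImplicit false

noncomputable section

namespace FA.FurstenbergKifer

open MeasureTheory Filter Topology Module Set Metric
open FA.FurstenbergLyapunov
open scoped ENNReal BoundedContinuousFunction

variable {E : Type*} [NormedAddCommGroup E] [InnerProductSpace ℝ E] [FiniteDimensional ℝ E]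
  [MeasurableSpace E] [BorelSpace E] [Nontrivial E]

variable {μ : Measure (E →L[ℝ] E)} [IsProbabilityMeasure μ]

theorem norm_stepOp_iterate_le (hμ : ∀ᵐ A ∂μ, A ∈ unitDet E) (φ : Sph E →ᵇ ℝ) (j : ℕ)
    (v : Sph E) : ‖(stepOp hμ)^[j] φ v‖ ≤ ‖φ‖ := by
  induction j generalizing v with
  | zero => exact φ.norm_coe_le_norm v
  | succ j ih =>
    rw [Function.iterate_succ_apply', stepOp_apply]
    exact (norm_integral_le_of_norm_le_const (.of_forall fun _ => ih _)).trans (by simp)

variable (μ) in
/-- The average of the laws of the first `n` steps of the walk. -/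
def meanLaw (n : ℕ) (v : Sph E) : Measure (Sph E) :=
  (n : ℝ≥0∞)⁻¹ • ∑ j ∈ Finset.range n, (stepLaw μ)^[j] (Measure.dirac v)

theorem isProbabilityMeasure_meanLaw {n : ℕ} (hn : 0 < n) (v : Sph E) :
    IsProbabilityMeasure (meanLaw μ n v) := ⟨by
  have h : ∀ j, (stepLaw μ)^[j] (Measure.dirac v) univ = 1 := fun j =>
    (isProbabilityMeasure_stepLaw_iterate μ (Measure.dirac v) j).measure_univ
  rw [meanLaw, Measure.smul_apply, Measure.finsetSum_apply, Finset.sum_congr rfl fun j _ => h j,
    Finset.sum_const, Finset.card_range, nsmul_eq_mul, mul_one, smul_eq_mul,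
    ENNReal.inv_mul_cancel (Nat.cast_ne_zero.2 hn.ne') (ENNReal.natCast_ne_top n)]⟩

theorem integral_meanLaw (hμ : ∀ᵐ A ∂μ, A ∈ unitDet E) (n : ℕ) (v : Sph E) (φ : Sph E →ᵇ ℝ) :
    ∫ w, φ w ∂(meanLaw μ n v) =
      (∑ j ∈ Finset.range n, (stepOp hμ)^[j] φ v) / n := by
  rw [meanLaw, integral_smul_measure, integral_finsetSum_measure fun j _ => ?_,
    ENNReal.toReal_inv, ENNReal.toReal_natCast, smul_eq_mul, inv_mul_eq_div]
  · refine congrArg (· / (n : ℝ)) (Finset.sum_congr rfl fun j _ => ?_)
    rw [integral_stepLaw_iterate μ hμ (Measure.dirac v) j φ, integral_dirac]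
  · have := isProbabilityMeasure_stepLaw_iterate μ (Measure.dirac v) j
    exact BoundedContinuousFunction.integrable _ φ

/-- The averages tend along a subsequence to a stationary measure. -/
theorem exists_stationary_limit (hμ : ∀ᵐ A ∂μ, A ∈ unitDet E) {N : ℕ → ℕ} (hN : ∀ k, 0 < N k)
    (hNlim : Tendsto N atTop atTop) (v : ℕ → Sph E) :
    ∃ ν : ProbabilityMeasure (Sph E), stepLaw μ (ν : Measure (Sph E)) = ν ∧
      ∃ t : ℕ → ℕ, StrictMono t ∧ ∀ φ : Sph E →ᵇ ℝ,
        Tendsto (fun k => ∫ w, φ w ∂(meanLaw μ (N (t k)) (v (t k)))) atTop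
          (𝓝 (∫ w, φ w ∂(ν : Measure (Sph E)))) := by
  set P : ℕ → ProbabilityMeasure (Sph E) :=
    fun k => ⟨meanLaw μ (N k) (v k), isProbabilityMeasure_meanLaw (hN k) (v k)⟩
  obtain ⟨ν, -, t, ht, hν⟩ := (isCompact_univ (X := ProbabilityMeasure (Sph E))).tendsto_subseq
    (x := P) fun k => mem_univ _
  rw [ProbabilityMeasure.tendsto_iff_forall_integral_tendsto] at hν
  refine ⟨ν, ?_, t, ht, hν⟩
  have := isProbabilityMeasure_stepLaw μ (ν : Measure (Sph E))
  refine ext_of_forall_integral_eq_of_IsFiniteMeasure fun φ => ?_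
  rw [integral_stepLaw μ hμ φ]
  refine tendsto_nhds_unique (hν (stepOp hμ φ)) ?_
  set M := fun k => N (t k)
  have hM : Tendsto (fun k => (M k : ℝ)) atTop atTop :=
    tendsto_natCast_atTop_atTop.comp (hNlim.comp ht.tendsto_atTop)
  have hdiff : Tendsto (fun k => ((stepOp hμ)^[M k] φ (v (t k)) - φ (v (t k))) / (M k : ℝ))
      atTop (𝓝 0) := by
    refine squeeze_zero_norm (a := fun k => (‖φ‖ + ‖φ‖) / (M k : ℝ)) (fun k => ?_)
      (tendsto_const_nhds.div_atTop hM)
    rw [norm_div, RCLike.norm_natCast]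
    exact div_le_div_of_nonneg_right ((norm_sub_le _ _).trans
      (add_le_add (norm_stepOp_iterate_le hμ φ _ _) (φ.norm_coe_le_norm _))) (Nat.cast_nonneg _)
  have h := (hν φ).add hdiff
  rw [add_zero] at h
  refine h.congr fun k => ?_
  show ∫ w, φ w ∂(meanLaw μ (M k) (v (t k))) + _ =
    ∫ w, stepOp hμ φ w ∂(meanLaw μ (M k) (v (t k)))
  simp only [integral_meanLaw hμ, ← add_div]
  refine congrArg (· / (M k : ℝ)) ?_
  simp only [← Function.iterate_succ_apply]
  have hsum := Finset.sum_range_sub (fun j => (stepOp hμ)^[j] φ (v (t k))) (M k)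
  rw [Finset.sum_sub_distrib] at hsum
  simp only [Function.iterate_zero_apply, Nat.succ_eq_add_one] at hsum ⊢
  linarith

variable (μ) in
theorem exists_stationary (hμ : ∀ᵐ A ∂μ, A ∈ unitDet E) :
    ∃ ν : ProbabilityMeasure (Sph E), stepLaw μ (ν : Measure (Sph E)) = ν := by
  obtain ⟨ν, hν, -⟩ := exists_stationary_limit (μ := μ) hμ (N := fun k => k + 1)
    (fun k => k.succ_pos) (tendsto_add_atTop_nat 1) fun _ => basePoint E
  exact ⟨ν, hν⟩

/-- The mean growth in one step. -/
def growthOne (hμ : ∀ᵐ A ∂μ, A ∈ unitDet E) (hint : Integrable (fun A => Real.log ‖A‖) μ) :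
    Sph E →ᵇ ℝ :=
  BoundedContinuousFunction.mkOfCompact ⟨fun v => ∫ A, Real.log ‖A (v : E)‖ ∂μ,
    continuous_avgFun μ hμ
      (fun _ => (measurable_log_apply measurable_id measurable_const).aestronglyMeasurable)
      (fun A hA => ((A.continuous.comp continuous_subtype_val).norm).log
        fun v => norm_ne_zero_iff.2 (apply_ne_zero hA (sph_ne_zero v)))
      ((integrable_const (exists_abs_log_apply_le (E := E)).choose).add
        (hint.const_mul (finrank ℝ E : ℝ)))
      fun v => hμ.mono fun A hA =>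
        (exists_abs_log_apply_le (E := E)).choose_spec.2 A hA v (norm_eq_of_mem_sphere v)⟩

theorem growthOne_apply (hμ : ∀ᵐ A ∂μ, A ∈ unitDet E)
    (hint : Integrable (fun A => Real.log ‖A‖) μ) (v : Sph E) :
    growthOne hμ hint v = ∫ A, Real.log ‖A (v : E)‖ ∂μ := rfl

theorem integrable_log_randProd_apply (hμ : ∀ᵐ A ∂μ, A ∈ unitDet E)
    (hint : Integrable (fun A => Real.log ‖A‖) μ) (n : ℕ) (v : Sph E) :
    Integrable (fun x => Real.log ‖randProd n x (v : E)‖)
      (Measure.infinitePi fun _ : ℕ => μ) := by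
  obtain ⟨C, -, hC⟩ := exists_abs_log_apply_le (E := E)
  refine ((integrable_const C).add
    ((integrable_log_randProd μ hμ hint n).const_mul (finrank ℝ E : ℝ))).mono'
    (measurable_log_apply (measurable_randProd n) measurable_const).aestronglyMeasurable ?_
  exact (ae_all_unitDet μ hμ).mono fun x hx =>
    hC _ (randProd_mem_unitDet hx n) v (norm_eq_of_mem_sphere v)

/-- The mean growth in `n` steps. -/
theorem integral_log_randProd_apply (hμ : ∀ᵐ A ∂μ, A ∈ unitDet E)
    (hint : Integrable (fun A => Real.log ‖A‖) μ) (n : ℕ) (v : Sph E) :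
    ∫ x, Real.log ‖randProd n x (v : E)‖ ∂(Measure.infinitePi fun _ : ℕ => μ) =
      ∑ j ∈ Finset.range n, (stepOp hμ)^[j] (growthOne hμ hint) v := by
  induction n generalizing v with
  | zero => simp [randProd, FA.Kingman.cocycleProd]
  | succ n ih =>
    set π := Measure.infinitePi fun _ : ℕ => μ with hπ
    set g : (E →L[ℝ] E) × (ℕ → E →L[ℝ] E) → ℝ :=
      fun p => Real.log ‖randProd n p.2 (act p.1 v : E)‖
    have hgm : Measurable g := measurable_log_apply ((measurable_randProd n).comp measurable_snd)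
      (measurable_subtype_coe.comp (measurable_act_pair measurable_fst measurable_const))
    have hgi : Integrable g (μ.prod π) := by
      obtain ⟨C, -, hC⟩ := exists_abs_log_apply_le (E := E)
      refine (((integrable_const C).add
        ((integrable_log_randProd μ hμ hint n).const_mul (finrank ℝ E : ℝ))).comp_snd μ).mono'
        hgm.aestronglyMeasurable ?_
      filter_upwards [Measure.quasiMeasurePreserving_snd.ae (ae_all_unitDet μ hμ)] with p hp
      exact hC _ (randProd_mem_unitDet hp n) _ (norm_eq_of_mem_sphere _)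
    have h1i : Integrable (fun p : (E →L[ℝ] E) × (ℕ → E →L[ℝ] E) => Real.log ‖p.1 (v : E)‖)
        (μ.prod π) := (integrable_log_apply μ hμ hint v).comp_fst π
    have hsplit : ∫ x, Real.log ‖randProd (n + 1) x (v : E)‖ ∂π =
        ∫ p, (Real.log ‖p.1 (v : E)‖ + g p) ∂(μ.prod π) := by
      have hsm : Measurable fun p : (E →L[ℝ] E) × (ℕ → E →L[ℝ] E) =>
          Real.log ‖p.1 (v : E)‖ + g p :=
        (measurable_log_apply measurable_fst measurable_const).add hgm
      rw [hπ, ← map_split_infinitePi μ, integral_map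
        ((measurable_pi_apply 0).prodMk measurable_shift).aemeasurable
        hsm.aestronglyMeasurable]
      exact integral_congr_ae ((ae_all_unitDet μ hμ).mono fun x hx => by
        show Real.log ‖randProd (n + 1) x (v : E)‖ =
          Real.log ‖x 0 (v : E)‖ + Real.log ‖randProd n (shift x) (act (x 0) v : E)‖
        rw [randProd_succ, log_apply_act (B := randProd n (shift x)) (hx 0)
          (randProd_mem_unitDet (x := shift x) (fun i => hx (i + 1)) n)])
    rw [hsplit, integral_add h1i hgi, integral_fun_fst (fun A : E →L[ℝ] E => Real.log ‖A (v : E)‖),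
      probReal_univ, one_smul, integral_prod g hgi, Finset.sum_range_succ']
    have hin : ∀ A : E →L[ℝ] E, ∫ y, g (A, y) ∂π =
        ∑ j ∈ Finset.range n, (stepOp hμ)^[j] (growthOne hμ hint) (act A v) := fun A => ih (act A v)
    simp only [hin, Function.iterate_succ_apply', stepOp_apply, Function.iterate_zero_apply,
      growthOne_apply]
    rw [integral_finsetSum _ fun j _ => ?_, add_comm]
    exact Integrable.of_bound ((((stepOp hμ)^[j] (growthOne hμ hint)).continuous.measurable.comp
      (measurable_act_pair measurable_id measurable_const))).aestronglyMeasurable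
      ‖growthOne hμ hint‖ (.of_forall fun _ => norm_stepOp_iterate_le hμ _ j _)

variable (μ) in
/-- **Uniform growth in the mean.** -/
theorem uniform_mean_growth (hμ : ∀ᵐ A ∂μ, A ∈ unitDet E) (hsi : StronglyIrreducible μ.support)
    (hint : Integrable (fun A => Real.log ‖A‖) μ) {γ : ℝ}
    (hlim : ∀ᵐ x ∂(Measure.infinitePi fun _ : ℕ => μ),
      Tendsto (fun n : ℕ => Real.log ‖randProd n x‖ / n) atTop (𝓝 γ)) {ε : ℝ} (hε : 0 < ε) :
    ∀ᶠ n : ℕ in atTop, ∀ v : Sph E,
      |(∫ x, Real.log ‖randProd n x (v : E)‖ ∂(Measure.infinitePi fun _ : ℕ => μ)) / n - γ| ≤ ε :=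
    by
  by_contra h
  rw [not_eventually] at h
  have h' : ∀ k : ℕ, ∃ n, k < n ∧ ∃ v : Sph E, ε < |(∫ x, Real.log ‖randProd n x (v : E)‖
      ∂(Measure.infinitePi fun _ : ℕ => μ)) / n - γ| := fun k => by
    obtain ⟨n, hn, hn'⟩ := frequently_atTop.1 h (k + 1)
    push Not at hn'
    exact ⟨n, hn, hn'⟩
  choose N hN v hv using h'
  obtain ⟨ν, hν, t, ht, htend⟩ := exists_stationary_limit (μ := μ) hμ
    (fun k => lt_of_le_of_lt k.zero_le (hN k)) (tendsto_atTop_mono (fun k => (hN k).le) tendsto_id)
    v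
  have hγ : ∫ w, growthOne hμ hint w ∂(ν : Measure (Sph E)) = γ :=
    stationary_formula μ hμ hsi hint hlim _ hν
  have h0 := htend (growthOne hμ hint)
  simp only [integral_meanLaw hμ, hγ, ← integral_log_randProd_apply hμ hint] at h0
  obtain ⟨k, hk⟩ := ((Metric.tendsto_nhds.1 h0) ε hε).exists
  exact absurd hk (not_lt.2 (hv (t k)).le)

end FA.FurstenbergKifer
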