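import Fermat.Agent.FurstenbergKifer.Almost

/-!
# Every vector grows at the rate `γ`
-/

set_option autoImplicit false

noncomputable section

namespace FA.FurstenbergKifer

open MeasureTheory Filter Topology Module Set Metric
open FA.FurstenbergLyapunov

variable {E : Type*} [NormedAddCommGroup E] [InnerProductSpace ℝ E] [FiniteDimensional ℝ E]
  [MeasurableSpace E] [BorelSpace E] [Nontrivial E]

theorem log_norm_randProd_le_sum {x : ℕ → E →L[ℝ] E} (hx : ∀ i, x i ∈ unitDet E) (r : ℕ) :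
    Real.log ‖randProd r x‖ ≤ birkhoffSum shift (fun y => Real.log ‖y 0‖) r x := by
  induction r with
  | zero => simp [randProd, FA.Kingman.cocycleProd]
  | succ r ih =>
    rw [birkhoffSum_succ, shift_iterate_apply, Nat.zero_add]
    linarith [log_norm_randProd_succ_le hx r]

variable (μ : Measure (E →L[ℝ] E)) [IsProbabilityMeasure μ]

/-- The lower bound. -/
theorem eventually_growth (hμ : ∀ᵐ A ∂μ, A ∈ unitDet E) (hsi : StronglyIrreducible μ.support)
    (hint : Integrable (fun A => Real.log ‖A‖) μ) {γ : ℝ}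
    (hlim : ∀ᵐ x ∂(Measure.infinitePi fun _ : ℕ => μ),
      Tendsto (fun n : ℕ => Real.log ‖randProd n x‖ / n) atTop (𝓝 γ))
    {ε : ℝ} (hε : 0 < ε) (v : Sph E) :
    ∀ᵐ x ∂(Measure.infinitePi fun _ : ℕ => μ), ∀ᶠ n : ℕ in atTop,
      (n : ℝ) * (γ - ε) ≤ Real.log ‖randProd n x (v : E)‖ := by
  set π := Measure.infinitePi fun _ : ℕ => μ with hπ
  obtain ⟨m, hm, hm0⟩ := ((uniform_mean_growth μ hμ hsi hint hlim
    (div_pos hε zero_lt_four)).and (eventually_gt_atTop 0)).exists
  have hmR : (0 : ℝ) < m := Nat.cast_pos.2 hm0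
  have ha : ∀ w : Sph E, (m : ℝ) * (γ - ε / 4) ≤
      ∫ A, Real.log ‖A (w : E)‖ ∂(blockLaw μ m) := fun w => by
    have h := (abs_le.1 (hm w)).1
    have hmA : Measurable fun A : E →L[ℝ] E => Real.log ‖A (w : E)‖ :=
      measurable_log_apply measurable_id measurable_const
    rw [blockLaw, integral_map (measurable_randProd m).aemeasurable hmA.aestronglyMeasurable]
    have h' := (le_div_iff₀ hmR).1 (by linarith : γ - ε / 4 ≤
      (∫ x, Real.log ‖randProd m x (w : E)‖ ∂π) / m)
    linarith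
  have hblock := eventually_growth_of_mean (blockLaw μ m) (blockLaw_unitDet μ hμ m)
    (integrable_log_blockLaw μ hμ hint m) ha (ε := (m : ℝ) * (ε / 4)) (by positivity) v
  rw [← map_blocks μ m] at hblock
  have hblock' := ae_of_ae_map (measurable_blocks m).aemeasurable hblock
  set e := ∫ x, Real.log ‖x 0‖ ∂π
  have hsum := FA.PointwiseErgodic.tendsto_average_ergodic (ergodic_shift μ)
    ((measurePreserving_eval_infinitePi (fun _ : ℕ => μ) 0).integrable_comp_of_integrable hint)
  filter_upwards [hblock', hsum, ae_all_unitDet μ hμ] with x hx hxs hxu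
  set S := fun j : ℕ => birkhoffSum shift (fun y : ℕ → E →L[ℝ] E => Real.log ‖y 0‖) j x with hS
  have hclose : ∀ᶠ j : ℕ in atTop, |S j - e * j| ≤ ε / 8 * j := by
    have h : Tendsto (fun j : ℕ => S j / j) atTop (𝓝 e) := hxs.congr fun j => by
      rw [birkhoffAverage, smul_eq_mul, inv_mul_eq_div]
      rfl
    filter_upwards [Metric.tendsto_nhds.1 h (ε / 8) (by positivity), eventually_gt_atTop 0]
      with j hj hj0
    have hj' : (0 : ℝ) < j := Nat.cast_pos.2 hj0
    rw [Real.dist_eq, div_sub' hj'.ne', abs_div, abs_of_pos hj', div_lt_iff₀ hj'] at hj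
    rw [mul_comm e]
    exact hj.le
  obtain ⟨J, hJ⟩ := eventually_atTop.1 hclose
  obtain ⟨K, hK⟩ := eventually_atTop.1 hx
  filter_upwards [eventually_ge_atTop J, eventually_ge_atTop (m * K),
    (tendsto_natCast_atTop_atTop.const_mul_atTop (by positivity : (0 : ℝ) < ε / 8)).eventually
      (eventually_ge_atTop ((|e| + |γ - ε / 2| + ε) * m))] with n hnJ hnK hnbig
  set k := n / m + 1 with hk
  have hk1 : n ≤ m * k := by
    rw [hk, Nat.mul_succ]
    have := Nat.div_add_mod n m
    have := Nat.mod_lt n hm0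
    omega
  obtain ⟨r, hr⟩ := Nat.exists_eq_add_of_le hk1
  have hrm : r ≤ m := by
    rw [hk, Nat.mul_succ] at hr
    have := Nat.div_add_mod n m
    omega
  have hkK : K ≤ k := by
    have := Nat.le_of_mul_le_mul_left (hnK.trans hk1) hm0
    exact this
  have hlow : (k : ℝ) * ((m : ℝ) * (γ - ε / 4) - (m : ℝ) * (ε / 4)) ≤
      Real.log ‖randProd (n + r) x (v : E)‖ := by
    rw [← hr, ← randProd_blocks m k x]
    exact hK k hkK
  have hy : ∀ i, shift^[n] x i ∈ unitDet E := fun i => by
    rw [shift_iterate_apply]; exact hxu _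
  have hv1 : 0 < ‖randProd n x (v : E)‖ :=
    norm_pos_iff.2 (apply_ne_zero (randProd_mem_unitDet hxu n) (sph_ne_zero v))
  have hsplit : Real.log ‖randProd (n + r) x (v : E)‖ ≤
      Real.log ‖randProd n x (v : E)‖ + (S (n + r) - S n) := by
    have h1 := log_norm_randProd_le_sum hy r
    have h2 : S (n + r) = S n + birkhoffSum shift (fun y => Real.log ‖y 0‖) r (shift^[n] x) :=
      birkhoffSum_add _ _ _ _ _
    have h3 : Real.log ‖randProd (n + r) x (v : E)‖ ≤
        Real.log (‖randProd r (shift^[n] x)‖ * ‖randProd n x (v : E)‖) := by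
      refine Real.log_le_log (norm_pos_iff.2
        (apply_ne_zero (randProd_mem_unitDet hxu (n + r)) (sph_ne_zero v))) ?_
      rw [randProd_add, mul_apply_eq_comp]
      exact ContinuousLinearMap.le_opNorm _ _
    rw [Real.log_mul (one_pos.trans_le (one_le_norm (randProd_mem_unitDet hy r))).ne' hv1.ne'] at h3
    linarith
  have e1 := abs_le.1 (hJ n hnJ)
  have e2 := abs_le.1 (hJ (n + r) (le_add_right hnJ))
  have hkm : (k : ℝ) * m = n + r := by
    rw [mul_comm]; exact_mod_cast hr
  have hrR : (r : ℝ) ≤ m := Nat.cast_le.2 hrm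
  have hlow' : ((n : ℝ) + r) * (γ - ε / 2) ≤ Real.log ‖randProd (n + r) x (v : E)‖ := by
    rw [← hkm]
    linarith
  push_cast at e2
  have b1 : e * r ≤ |e| * m :=
    (mul_le_mul_of_nonneg_right (le_abs_self e) (Nat.cast_nonneg r)).trans
      (mul_le_mul_of_nonneg_left hrR (abs_nonneg e))
  have b2 : -(|γ - ε / 2| * m) ≤ (γ - ε / 2) * r :=
    (neg_le_neg (mul_le_mul_of_nonneg_left hrR (abs_nonneg _))).trans
      (le_trans (le_of_eq (by ring)) (mul_le_mul_of_nonneg_right (neg_abs_le _)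
        (Nat.cast_nonneg r)))
  nlinarith

/-- **Every vector grows at the rate `γ`.** -/
theorem tendsto_log_apply (hμ : ∀ᵐ A ∂μ, A ∈ unitDet E) (hsi : StronglyIrreducible μ.support)
    (hint : Integrable (fun A => Real.log ‖A‖) μ) {γ : ℝ}
    (hlim : ∀ᵐ x ∂(Measure.infinitePi fun _ : ℕ => μ),
      Tendsto (fun n : ℕ => Real.log ‖randProd n x‖ / n) atTop (𝓝 γ))
    {v : E} (hv : v ≠ 0) :
    ∀ᵐ x ∂(Measure.infinitePi fun _ : ℕ => μ),
      Tendsto (fun n : ℕ => Real.log ‖randProd n x v‖ / n) atTop (𝓝 γ) := by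
  have hlow := ae_all_iff.2 fun j : ℕ =>
    eventually_growth μ hμ hsi hint hlim (ε := 1 / ((j : ℝ) + 1)) (by positivity) (dir v)
  filter_upwards [hlow, hlim, ae_all_unitDet μ hμ] with x hx hxl hxu
  rw [tendsto_order]
  refine ⟨fun c hc => ?_, fun c hc => ?_⟩
  · obtain ⟨j, hj⟩ := exists_nat_one_div_lt (half_pos (sub_pos.2 hc))
    filter_upwards [hx j, eventually_gt_atTop 0,
      (tendsto_natCast_atTop_atTop.const_mul_atTop (half_pos (sub_pos.2 hc))).eventually
        (eventually_gt_atTop (-Real.log ‖v‖))] with n hn hn0 hnv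
    have hQ := apply_ne_zero (randProd_mem_unitDet hxu n) hv
    rw [coe_dir hv, map_smul, norm_smul, norm_inv, norm_norm, Real.log_mul
      (inv_ne_zero (norm_ne_zero_iff.2 hv)) (norm_ne_zero_iff.2 hQ), Real.log_inv] at hn
    rw [lt_div_iff₀ (Nat.cast_pos.2 hn0)]
    have := mul_le_mul_of_nonneg_left hj.le (Nat.cast_nonneg (α := ℝ) n)
    linarith
  · obtain ⟨c', h1, h2⟩ := exists_between hc
    filter_upwards [eventually_apply_le hxu hxl hv h1, eventually_gt_atTop 0] with n hn hn0
    rw [div_lt_iff₀ (Nat.cast_pos.2 hn0)]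
    exact hn.trans_lt (mul_lt_mul_of_pos_right h2 (Nat.cast_pos.2 hn0))

end FA.FurstenbergKifer
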