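import Fermat.Agent.FurstenbergKifer.Uniform

/-!
# Almost sure growth of every vector

For a law whose mean growth in one step is at least `a` in every direction an exponential moment
bound for the truncated increments shows that every vector grows at least at the rate `a`.  This is
applied to the law of blocks of `m` factors.
-/

set_option autoImplicit false

noncomputable section

namespace FA.FurstenbergKifer

open MeasureTheory Filter Topology Module Set Metric
open FA.FurstenbergLyapunov
open scoped ENNReal

variable {E : Type*} [NormedAddCommGroup E] [InnerProductSpace ℝ E] [FiniteDimensional ℝ E]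
  [MeasurableSpace E] [BorelSpace E]

variable (μ : Measure (E →L[ℝ] E)) [IsProbabilityMeasure μ]

omit [MeasurableSpace E] [BorelSpace E] in
/-- The first `n` factors and the others are independent. -/
theorem map_block (n : ℕ) :
    (Measure.infinitePi fun _ : ℕ => μ).map (fun x => (randProd n x, shift^[n] x)) =
      ((Measure.infinitePi fun _ : ℕ => μ).map (randProd n)).prod
        (Measure.infinitePi fun _ : ℕ => μ) := by
  set π := Measure.infinitePi fun _ : ℕ => μ with hπ
  have hm : ∀ n : ℕ, Measurable fun x : ℕ → E →L[ℝ] E => (randProd n x, shift^[n] x) :=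
    fun n => (measurable_randProd n).prodMk (measurable_shift.iterate n)
  have hprob : ∀ n : ℕ, IsProbabilityMeasure (π.map (randProd n)) := fun n =>
    Measure.isProbabilityMeasure_map (measurable_randProd n).aemeasurable
  refine (Measure.prod_eq fun S B hS hB => ?_).symm
  rw [Measure.map_apply (hm n) (hS.prod hB), Measure.map_apply (measurable_randProd n) hS]
  induction n generalizing S with
  | zero =>
    by_cases h : (1 : E →L[ℝ] E) ∈ S
    · rw [show randProd (E := E) 0 ⁻¹' S = univ from eq_univ_of_forall fun _ => h, measure_univ,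
        one_mul]
      exact congrArg π (Set.ext fun x => ⟨fun hx => hx.2, fun hx => ⟨h, hx⟩⟩)
    · rw [show randProd (E := E) 0 ⁻¹' S = ∅ from eq_empty_of_forall_notMem fun _ => h,
        measure_empty, zero_mul]
      exact measure_mono_null (fun x hx => absurd hx.1 h) measure_empty
  | succ n ih =>
    have hs := ((measurable_pi_apply (0 : ℕ)).prodMk measurable_shift :
      Measurable fun x : ℕ → E →L[ℝ] E => (x 0, shift x))
    have hmul : ∀ A : E →L[ℝ] E, MeasurableSet {B : E →L[ℝ] E | B * A ∈ S} := fun A =>
      (continuous_id.mul continuous_const).measurable hS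
    have hT : MeasurableSet {p : (E →L[ℝ] E) × (ℕ → E →L[ℝ] E) |
        randProd n p.2 * p.1 ∈ S} :=
      (continuous_mul.measurable.comp (((measurable_randProd n).comp measurable_snd).prodMk
        measurable_fst)) hS
    have hU : MeasurableSet {p : (E →L[ℝ] E) × (ℕ → E →L[ℝ] E) |
        randProd n p.2 * p.1 ∈ S ∧ shift^[n] p.2 ∈ B} :=
      hT.inter (((measurable_shift.iterate n).comp measurable_snd) hB)
    calc π ((fun x => (randProd (n + 1) x, shift^[n + 1] x)) ⁻¹' (S ×ˢ B))
        = (π.map fun x => (x 0, shift x)) {p | randProd n p.2 * p.1 ∈ S ∧ shift^[n] p.2 ∈ B} := by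
          rw [Measure.map_apply hs hU]; rfl
      _ = ∫⁻ A, π ((fun x => (randProd n x, shift^[n] x)) ⁻¹' ({C | C * A ∈ S} ×ˢ B)) ∂μ := by
          rw [hπ, map_split_infinitePi μ, Measure.prod_apply hU]; rfl
      _ = ∫⁻ A, π (randProd n ⁻¹' {C | C * A ∈ S}) * π B ∂μ :=
          lintegral_congr fun A => ih _ (hmul A)
      _ = (∫⁻ A, π (randProd n ⁻¹' {C | C * A ∈ S}) ∂μ) * π B :=
          lintegral_mul_const' _ _ (measure_ne_top _ _)
      _ = _ := by
          congr 1
          calc ∫⁻ A, π (randProd n ⁻¹' {C | C * A ∈ S}) ∂μ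
              = (μ.prod π) {p | randProd n p.2 * p.1 ∈ S} := (Measure.prod_apply hT).symm
            _ = π (randProd (n + 1) ⁻¹' S) := by
                rw [hπ, ← map_split_infinitePi μ, Measure.map_apply hs hT]; rfl

/-- The law of a product of `m` factors. -/
def blockLaw (m : ℕ) : Measure (E →L[ℝ] E) :=
  (Measure.infinitePi fun _ : ℕ => μ).map (randProd m)

instance (m : ℕ) : IsProbabilityMeasure (blockLaw μ m) :=
  Measure.isProbabilityMeasure_map (measurable_randProd m).aemeasurable

/-- The products of the successive blocks of `m` factors. -/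
def blocks (m : ℕ) (x : ℕ → E →L[ℝ] E) (k : ℕ) : E →L[ℝ] E := randProd m (shift^[m * k] x)

omit [MeasurableSpace E] [BorelSpace E] in
theorem measurable_blocks (m : ℕ) : Measurable (blocks (E := E) m) :=
  measurable_pi_lambda _ fun _ => (measurable_randProd m).comp (measurable_shift.iterate _)

omit [FiniteDimensional ℝ E] [MeasurableSpace E] [BorelSpace E] in
theorem randProd_blocks (m k : ℕ) (x : ℕ → E →L[ℝ] E) :
    randProd k (blocks m x) = randProd (m * k) x := by
  induction k with
  | zero => rfl
  | succ k ih => rw [randProd_succ', ih, Nat.mul_succ, randProd_add, blocks]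

omit [MeasurableSpace E] [BorelSpace E] in
/-- The blocks are independent with the law `blockLaw μ m`. -/
theorem map_blocks (m : ℕ) :
    (Measure.infinitePi fun _ : ℕ => μ).map (blocks m) =
      Measure.infinitePi fun _ : ℕ => blockLaw μ m := by
  classical
  set π := Measure.infinitePi fun _ : ℕ => μ with hπ
  have hN : ∀ (N : ℕ) (t : ℕ → Set (E →L[ℝ] E)), (∀ i, MeasurableSet (t i)) →
      π {x | ∀ i < N, blocks m x i ∈ t i} = ∏ i ∈ Finset.range N, blockLaw μ m (t i) := by
    intro N
    induction N with
    | zero => intro t _; simp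
    | succ N ih =>
      intro t ht
      have hB : MeasurableSet {y : ℕ → E →L[ℝ] E | ∀ i < N, blocks m y i ∈ t (i + 1)} := by
        simp only [ofPred_forall]
        exact MeasurableSet.iInter fun i => MeasurableSet.iInter fun _ =>
          ((measurable_pi_apply i).comp (measurable_blocks m)) (ht _)
      have hset : {x : ℕ → E →L[ℝ] E | ∀ i < N + 1, blocks m x i ∈ t i} =
          (fun x => (randProd m x, shift^[m] x)) ⁻¹'
            (t 0 ×ˢ {y | ∀ i < N, blocks m y i ∈ t (i + 1)}) := by
        ext x
        have hb : ∀ i, blocks m (shift^[m] x) i = blocks m x (i + 1) := fun i => by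
          rw [blocks, blocks, ← Function.iterate_add_apply, Nat.mul_succ]
        have h0 : blocks m x 0 = randProd m x := by simp [blocks]
        simp only [mem_preimage, mem_prod, mem_ofPred_eq, hb, ← h0]
        constructor
        · exact fun h => ⟨h 0 N.succ_pos, fun i hi => h (i + 1) (by omega)⟩
        · rintro ⟨h1, h2⟩ i hi
          cases i with
          | zero => exact h1
          | succ i => exact h2 i (by omega)
      rw [hset, ← Measure.map_apply ((measurable_randProd m).prodMk (measurable_shift.iterate m))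
        ((ht 0).prod hB), hπ, map_block μ m, Measure.prod_prod,
        ih (fun i => t (i + 1)) fun i => ht _, Finset.prod_range_succ', mul_comm]
      rfl
  refine Measure.eq_infinitePi _ fun s t ht => ?_
  rw [Measure.map_apply (measurable_blocks m) (.pi s.countable_toSet fun i _ => ht i)]
  set N := s.sup id + 1
  set t' : ℕ → Set (E →L[ℝ] E) := fun i => if i ∈ s then t i else univ
  have ht' : ∀ i, MeasurableSet (t' i) := fun i => by
    simp only [t']; split
    · exact ht i
    · exact .univ
  have hlt : ∀ i ∈ s, i < N := fun i hi => Nat.lt_succ_of_le (Finset.le_sup (f := id) hi)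
  have hset : blocks m ⁻¹' (s : Set ℕ).pi t =
      {x : ℕ → E →L[ℝ] E | ∀ i < N, blocks m x i ∈ t' i} := by
    ext x
    simp only [mem_preimage, Set.mem_pi, SetLike.mem_coe, mem_ofPred_eq, t']
    refine ⟨fun h i _ => ?_, fun h i hi => by simpa [hi] using h i (hlt i hi)⟩
    by_cases hi : i ∈ s <;> simp [hi, h]
  rw [hset, hN N t' ht']
  refine (Finset.prod_subset_one_on_sdiff (fun i hi => Finset.mem_range.2 (hlt i hi))
    (fun i hi => ?_) fun i hi => ?_).symm
  · simp [t', (Finset.mem_sdiff.1 hi).2]
  · simp [t', hi]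

variable [Nontrivial E]

omit [MeasurableSpace E] [BorelSpace E] [Nontrivial E] in
theorem blockLaw_unitDet (hμ : ∀ᵐ A ∂μ, A ∈ unitDet E) (m : ℕ) :
    ∀ᵐ A ∂(blockLaw μ m), A ∈ unitDet E :=
  (ae_map_iff (measurable_randProd m).aemeasurable isClosed_unitDet.measurableSet).2
    ((ae_all_unitDet μ hμ).mono fun _ hx => randProd_mem_unitDet hx m)

theorem integrable_log_blockLaw (hμ : ∀ᵐ A ∂μ, A ∈ unitDet E)
    (hint : Integrable (fun A => Real.log ‖A‖) μ) (m : ℕ) :
    Integrable (fun A => Real.log ‖A‖) (blockLaw μ m) :=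
  (integrable_map_measure (Real.measurable_log.comp continuous_norm.measurable).aestronglyMeasurable
    (measurable_randProd m).aemeasurable).2 (integrable_log_randProd μ hμ hint m)

/-- A truncated increment. -/
def clampLog (K : ℝ) (A : E →L[ℝ] E) (v : Sph E) : ℝ :=
  max (-K) (min K (Real.log ‖A (v : E)‖))

/-- The sum of the truncated increments along the walk from `v`. -/
def clampSum (K : ℝ) : ℕ → Sph E → (ℕ → E →L[ℝ] E) → ℝ
  | 0, _, _ => 0
  | n + 1, v, x => clampLog K (x 0) v + clampSum K n (act (x 0) v) (shift x)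

omit [Nontrivial E] in
theorem measurable_clampLog (K : ℝ) :
    Measurable fun p : (E →L[ℝ] E) × Sph E => clampLog K p.1 p.2 :=
  measurable_const.max (measurable_const.min
    (measurable_log_apply measurable_fst (measurable_subtype_coe.comp measurable_snd)))

theorem measurable_clampSum (K : ℝ) (n : ℕ) :
    Measurable fun p : Sph E × (ℕ → E →L[ℝ] E) => clampSum K n p.1 p.2 := by
  induction n with
  | zero => exact measurable_const
  | succ n ih =>
    have h0 : Measurable fun p : Sph E × (ℕ → E →L[ℝ] E) => p.2 0 :=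
      (measurable_pi_apply 0).comp measurable_snd
    exact (((measurable_clampLog K).comp (h0.prodMk measurable_fst)).add
      (ih.comp ((measurable_act_pair h0 measurable_fst).prodMk
        (measurable_shift.comp measurable_snd))) :)

/-- **The exponential moment bound.** -/
theorem lintegral_exp_clampSum_le {K t q : ℝ} (hq0 : 0 ≤ q)
    (hq : ∀ v : Sph E, ∫⁻ A, ENNReal.ofReal (Real.exp (-t * clampLog K A v)) ∂μ ≤ ENNReal.ofReal q)
    (n : ℕ) (v : Sph E) :
    ∫⁻ x, ENNReal.ofReal (Real.exp (-t * clampSum K n v x))
      ∂(Measure.infinitePi fun _ : ℕ => μ) ≤ ENNReal.ofReal (q ^ n) := by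
  induction n generalizing v with
  | zero => simp [clampSum]
  | succ n ih =>
    set π := Measure.infinitePi fun _ : ℕ => μ with hπ
    set g : (E →L[ℝ] E) × (ℕ → E →L[ℝ] E) → ℝ≥0∞ := fun p =>
      ENNReal.ofReal (Real.exp (-t * clampLog K p.1 v)) *
        ENNReal.ofReal (Real.exp (-t * clampSum K n (act p.1 v) p.2))
    have hgm : Measurable g :=
      ((Real.measurable_exp.comp (((measurable_clampLog K).comp
        (measurable_fst.prodMk measurable_const)).const_mul (-t))).ennreal_ofReal).mul
      ((Real.measurable_exp.comp (((measurable_clampSum K n).comp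
        ((measurable_act_pair measurable_fst measurable_const).prodMk
          measurable_snd)).const_mul (-t))).ennreal_ofReal)
    calc ∫⁻ x, ENNReal.ofReal (Real.exp (-t * clampSum K (n + 1) v x)) ∂π
        = ∫⁻ x, g (x 0, shift x) ∂π := lintegral_congr fun x => by
          simp only [g, clampSum, ← ENNReal.ofReal_mul (Real.exp_pos _).le, ← Real.exp_add,
            mul_add]
      _ = ∫⁻ p, g p ∂(μ.prod π) := by
          rw [hπ, ← map_split_infinitePi μ,
            lintegral_map hgm ((measurable_pi_apply 0).prodMk measurable_shift)]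
      _ = ∫⁻ A, ∫⁻ y, g (A, y) ∂π ∂μ := lintegral_prod g hgm.aemeasurable
      _ ≤ ∫⁻ A, ENNReal.ofReal (Real.exp (-t * clampLog K A v)) * ENNReal.ofReal (q ^ n) ∂μ := by
          refine lintegral_mono fun A => ?_
          simp only [g]
          rw [lintegral_const_mul' _ _ ENNReal.ofReal_ne_top]
          exact mul_le_mul' le_rfl (ih _)
      _ ≤ ENNReal.ofReal q * ENNReal.ofReal (q ^ n) := by
          rw [lintegral_mul_const' _ _ ENNReal.ofReal_ne_top]
          exact mul_le_mul' (hq v) le_rfl
      _ = _ := by rw [← ENNReal.ofReal_mul hq0, pow_succ']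

/-- **A lower rate in every direction in one step gives it almost surely.** -/
theorem eventually_growth_of_mean (hμ : ∀ᵐ A ∂μ, A ∈ unitDet E)
    (hint : Integrable (fun A => Real.log ‖A‖) μ) {a : ℝ}
    (ha : ∀ v : Sph E, a ≤ ∫ A, Real.log ‖A (v : E)‖ ∂μ) {ε : ℝ} (hε : 0 < ε) (v : Sph E) :
    ∀ᵐ x ∂(Measure.infinitePi fun _ : ℕ => μ), ∀ᶠ k : ℕ in atTop,
      (k : ℝ) * (a - ε) ≤ Real.log ‖randProd k x (v : E)‖ := by
  obtain ⟨C, hC0, hC⟩ := exists_abs_log_apply_le (E := E)
  set Z : (E →L[ℝ] E) → ℝ := fun A => C + finrank ℝ E * Real.log ‖A‖ with hZ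
  have hZm : Measurable Z :=
    ((Real.measurable_log.comp continuous_norm.measurable).const_mul _).const_add C
  have hZi : Integrable Z μ := (integrable_const C).add (hint.const_mul _)
  -- the tail of the envelope
  obtain ⟨K, hK, hW⟩ : ∃ K : ℕ, 1 ≤ K ∧ ∫ A, max (Z A - K) 0 ∂μ ≤ ε / 4 := by
    have h : Tendsto (fun K : ℕ => ∫ A, max (Z A - K) 0 ∂μ) atTop (𝓝 0) := by
      have h := tendsto_integral_of_dominated_convergence (fun A => ‖Z A‖)
        (F := fun (K : ℕ) A => max (Z A - K) 0) (f := fun _ => (0 : ℝ)) (μ := μ)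
        (fun K => ((hZm.sub_const _).max measurable_const).aestronglyMeasurable) hZi.norm
        (fun K => .of_forall fun A => by
          rw [Real.norm_of_nonneg (le_max_right _ _), Real.norm_eq_abs]
          exact max_le (le_trans (sub_le_self _ (Nat.cast_nonneg K)) (le_abs_self _))
            (abs_nonneg _))
        (.of_forall fun A => by
          obtain ⟨N, hN⟩ := exists_nat_ge (Z A)
          refine tendsto_const_nhds.congr' ?_
          filter_upwards [eventually_ge_atTop N] with K hK
          exact (max_eq_right (sub_nonpos.2 (hN.trans (Nat.cast_le.2 hK)))).symm)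
      simpa using h
    exact ((eventually_ge_atTop 1).and
      (h.eventually (eventually_le_nhds (div_pos hε zero_lt_four)))).exists
  set W : (E →L[ℝ] E) → ℝ := fun A => max (Z A - K) 0 with hWdef
  have hWm : Measurable W := (hZm.sub_const _).max measurable_const
  have hWi : Integrable W μ := (hZi.sub (integrable_const _)).sup (integrable_const _)
  have hKpos : (0 : ℝ) < K := Nat.cast_pos.2 hK
  have hY : ∀ A ∈ unitDet E, ∀ w : Sph E,
      |Real.log ‖A (w : E)‖ - clampLog K A w| ≤ W A := fun A hA w => by
    have h := abs_le.1 (hC A hA w (norm_eq_of_mem_sphere w))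
    simp only [clampLog, hWdef, hZ]
    rw [abs_le]
    constructor
    · rcases le_total (Real.log ‖A (w : E)‖) (-(K : ℝ)) with h1 | h1
      · rw [min_eq_right (by linarith), max_eq_left h1]
        linarith [le_max_left (C + finrank ℝ E * Real.log ‖A‖ - K) 0]
      · linarith [max_le h1 (min_le_right (K : ℝ) (Real.log ‖A (w : E)‖)),
          le_max_right (C + finrank ℝ E * Real.log ‖A‖ - K) 0]
    · rcases le_total (K : ℝ) (Real.log ‖A (w : E)‖) with h1 | h1
      · rw [min_eq_left h1, max_eq_right (by linarith)]
        linarith [le_max_left (C + finrank ℝ E * Real.log ‖A‖ - K) 0]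
      · rw [min_eq_right h1]
        linarith [le_max_right (-(K : ℝ)) (Real.log ‖A (w : E)‖),
          le_max_right (C + finrank ℝ E * Real.log ‖A‖ - K) 0]
  have hDb : ∀ (A : E →L[ℝ] E) (w : Sph E), |clampLog K A w| ≤ K := fun A w =>
    abs_le.2 ⟨le_max_left _ _, max_le (by linarith) (min_le_left _ _)⟩
  -- the exponential bound
  set t := min (1 / (K : ℝ)) (ε / (8 * (K : ℝ) ^ 2)) with ht
  have ht0 : 0 < t := lt_min (by positivity) (by positivity)
  have htK : t * K ≤ 1 := by
    have := mul_le_mul_of_nonneg_right (min_le_left (1 / (K : ℝ)) (ε / (8 * (K : ℝ) ^ 2))) hKpos.le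
    rwa [div_mul_cancel₀ 1 hKpos.ne'] at this
  have htK2 : t * (K : ℝ) ^ 2 ≤ ε / 8 := by
    have := mul_le_mul_of_nonneg_right (min_le_right (1 / (K : ℝ)) (ε / (8 * (K : ℝ) ^ 2)))
      (sq_nonneg (K : ℝ))
    exact this.trans_eq (by field_simp)
  set q := Real.exp (-t * (a - ε / 2)) with hq
  have hqb : ∀ w : Sph E,
      ∫⁻ A, ENNReal.ofReal (Real.exp (-t * clampLog K A w)) ∂μ ≤ ENNReal.ofReal q := fun w => by
    have hDm : Measurable fun A => clampLog K A w :=
      (measurable_clampLog (K : ℝ)).comp (measurable_id.prodMk measurable_const)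
    have hDi : Integrable (fun A => clampLog K A w) μ :=
      Integrable.of_bound hDm.aestronglyMeasurable K (.of_forall fun A => hDb A w)
    have hmean : a - ε / 4 ≤ ∫ A, clampLog K A w ∂μ := by
      have h1 : ∫ A, Real.log ‖A (w : E)‖ - W A ∂μ ≤ ∫ A, clampLog K A w ∂μ :=
        integral_mono_ae ((integrable_log_apply μ hμ hint w).sub hWi) hDi
          (hμ.mono fun A hA => by linarith [(abs_le.1 (hY A hA w)).2])
      rw [integral_sub (integrable_log_apply μ hμ hint w) hWi] at h1
      linarith [ha w]
    have hbi : Integrable (fun A => 1 - t * clampLog K A w + (t * K) ^ 2) μ :=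
      ((integrable_const _).sub (hDi.const_mul t)).add (integrable_const _)
    calc ∫⁻ A, ENNReal.ofReal (Real.exp (-t * clampLog K A w)) ∂μ
        ≤ ∫⁻ A, ENNReal.ofReal (1 - t * clampLog K A w + (t * K) ^ 2) ∂μ := by
          refine lintegral_mono fun A => ENNReal.ofReal_le_ofReal ?_
          have hb : |-t * clampLog K A w| ≤ t * K := by
            rw [abs_mul, abs_neg, abs_of_pos ht0]
            exact mul_le_mul_of_nonneg_left (hDb A w) ht0.le
          have h2 := (abs_le.1 (Real.abs_exp_sub_one_sub_id_le (hb.trans htK))).2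
          have h3 : (-t * clampLog K A w) ^ 2 ≤ (t * K) ^ 2 := by
            rw [← sq_abs (-t * clampLog K A w)]
            exact pow_le_pow_left₀ (abs_nonneg _) hb 2
          linarith
      _ = ENNReal.ofReal (∫ A, (1 - t * clampLog K A w + (t * K) ^ 2) ∂μ) :=
          (ofReal_integral_eq_lintegral_ofReal hbi (.of_forall fun A => by
            have := mul_le_mul_of_nonneg_left (abs_le.1 (hDb A w)).2 ht0.le
            show 0 ≤ 1 - t * clampLog K A w + (t * K) ^ 2
            nlinarith [sq_nonneg (t * K)])).symm
      _ ≤ ENNReal.ofReal q := by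
          refine ENNReal.ofReal_le_ofReal ?_
          rw [integral_add (f := fun A => 1 - t * clampLog K A w) (g := fun _ => (t * K) ^ 2)
              ((integrable_const _).sub (hDi.const_mul t)) (integrable_const _),
            integral_sub (f := fun _ => (1 : ℝ)) (g := fun A => t * clampLog K A w)
              (integrable_const _) (hDi.const_mul t), integral_const_mul]
          simp only [integral_const, probReal_univ, one_smul]
          refine le_trans ?_ (Real.add_one_le_exp _)
          nlinarith [mul_le_mul_of_nonneg_left hmean ht0.le, mul_le_mul_of_nonneg_left htK2 ht0.le]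
  have hdecay := lintegral_exp_clampSum_le μ (Real.exp_pos _).le hqb
  -- Borel and Cantelli
  set π := Measure.infinitePi fun _ : ℕ => μ with hπ
  set r := Real.exp (t * (a - 2 * ε / 3)) * q with hr
  have hr1 : r < 1 := by
    rw [hr, hq, ← Real.exp_add, Real.exp_lt_one_iff]
    nlinarith
  set s : ℕ → Set (ℕ → E →L[ℝ] E) := fun k => {x | clampSum K k v x < k * (a - 2 * ε / 3)}
  have hs : ∀ k, π (s k) ≤ ENNReal.ofReal (r ^ k) := fun k => by
    set θ := Real.exp (-t * (k * (a - 2 * ε / 3))) with hθ
    have hm : Measurable fun x => ENNReal.ofReal (Real.exp (-t * clampSum K k v x)) :=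
      (Real.measurable_exp.comp (((measurable_clampSum (K : ℝ) k).comp
        (measurable_const.prodMk measurable_id)).const_mul (-t))).ennreal_ofReal
    have hsub : s k ⊆ {x | ENNReal.ofReal θ ≤ ENNReal.ofReal (Real.exp (-t * clampSum K k v x))} :=
      fun x (hx : clampSum K k v x < _) => ENNReal.ofReal_le_ofReal (Real.exp_le_exp.2
        (mul_le_mul_of_nonpos_left hx.le (neg_nonpos.2 ht0.le)))
    refine (measure_mono hsub).trans ((meas_ge_le_lintegral_div hm.aemeasurable
      (ENNReal.ofReal_pos.2 (Real.exp_pos _)).ne' ENNReal.ofReal_ne_top).trans ?_)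
    refine (ENNReal.div_le_div_right (hdecay k v) _).trans ?_
    rw [← ENNReal.ofReal_div_of_pos (Real.exp_pos _)]
    refine ENNReal.ofReal_le_ofReal (le_of_eq ?_)
    rw [hr, hq, mul_pow, ← Real.exp_nat_mul, ← Real.exp_nat_mul, div_eq_mul_inv, ← Real.exp_neg,
      ← Real.exp_add, ← Real.exp_add]
    ring_nf
  have hsum : ∑' k, π (s k) ≠ ⊤ := by
    refine ne_top_of_le_ne_top ?_ (ENNReal.tsum_le_tsum hs)
    rw [← ENNReal.ofReal_tsum_of_nonneg (fun n => by positivity)
      (summable_geometric_of_lt_one (by positivity) hr1)]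
    exact ENNReal.ofReal_ne_top
  have hWlim := FA.PointwiseErgodic.tendsto_average_ergodic (ergodic_shift μ)
    ((measurePreserving_eval_infinitePi (fun _ : ℕ => μ) 0).integrable_comp_of_integrable hWi)
  have hWint : ∫ x, W (x 0) ∂π ≤ ε / 4 := by
    refine le_trans (le_of_eq ?_) hW
    conv_rhs => rw [← (measurePreserving_eval_infinitePi (fun _ : ℕ => μ) 0).map_eq]
    exact (integral_map (measurable_pi_apply 0).aemeasurable hWm.aestronglyMeasurable).symm
  have hcompare : ∀ (k : ℕ) (x : ℕ → E →L[ℝ] E), (∀ i, x i ∈ unitDet E) → ∀ w : Sph E,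
      clampSum K k w x - birkhoffSum shift (fun y => W (y 0)) k x ≤
        Real.log ‖randProd k x (w : E)‖ := by
    intro k
    induction k with
    | zero => intro x _ w; simp [clampSum, randProd, FA.Kingman.cocycleProd]
    | succ k ih =>
      intro x hx w
      have h1 := ih (shift x) (fun i => hx (i + 1)) (act (x 0) w)
      rw [clampSum, birkhoffSum_succ', randProd_succ, log_apply_act (B := randProd k (shift x))
        (hx 0) (randProd_mem_unitDet (x := shift x) (fun i => hx (i + 1)) k)]
      linarith [(abs_le.1 (hY (x 0) (hx 0) w)).1]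
  filter_upwards [ae_eventually_notMem hsum, hWlim, ae_all_unitDet μ hμ] with x hx hxW hxu
  have hlt : ∀ᶠ k : ℕ in atTop, birkhoffAverage ℝ shift (fun y => W (y 0)) k x < ε / 4 + ε / 100 :=
    hxW.eventually (eventually_lt_nhds (lt_of_le_of_lt hWint (by linarith)))
  filter_upwards [hx, hlt, eventually_gt_atTop 0] with k hk hkW hk0
  have hk' : (0 : ℝ) < k := Nat.cast_pos.2 hk0
  rw [birkhoffAverage, smul_eq_mul, inv_mul_eq_div, div_lt_iff₀ hk'] at hkW
  have hS : (k : ℝ) * (a - 2 * ε / 3) ≤ clampSum K k v x := not_lt.1 hk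
  have hε' : 0 ≤ (k : ℝ) * ε := by positivity
  linarith [hcompare k x hxu v]

end FA.FurstenbergKifer
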