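import Fermat.Agent.FurstenbergLyapunov.Growth
import Mathlib.LinearAlgebra.Matrix.Adjugate
import Mathlib.Analysis.SpecialFunctions.Log.Basic

/-!
# Estimates for random products applied to a vector

The logarithm of `‖A v‖`, for `|det A| = 1` and a unit vector `v`, is at most a linear function of
`log ‖A‖` in absolute value; hence the growth of vectors is integrable when that of norms is.
-/

set_option autoImplicit false

noncomputable section

namespace FA.FurstenbergKifer

open MeasureTheory Filter Topology Module Set Metric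
open FA.FurstenbergLyapunov
open FA.Kingman (cocycleProd cocycleProd_add)

variable {E : Type*} [NormedAddCommGroup E] [InnerProductSpace ℝ E] [FiniteDimensional ℝ E]

theorem eventually_mul_exp_le (M : ℝ) {c c' : ℝ} (h : c < c') :
    ∀ᶠ n : ℕ in atTop, M * Real.exp (c * n) ≤ Real.exp (c' * n) := by
  filter_upwards [(tendsto_natCast_atTop_atTop.const_mul_atTop (sub_pos.2 h)).eventually
    (eventually_ge_atTop (|M|))] with n hn
  calc M * Real.exp (c * n) ≤ Real.exp ((c' - c) * n) * Real.exp (c * n) :=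
        mul_le_mul_of_nonneg_right ((le_abs_self M).trans (hn.trans
          ((le_add_of_nonneg_right zero_le_one).trans (Real.add_one_le_exp _))))
          (Real.exp_pos _).le
    _ = Real.exp (c' * n) := by rw [← Real.exp_add]; ring_nf

/-- `|log ‖A v‖|` is at most a constant plus a multiple of `log ‖A‖`. -/
theorem exists_abs_log_apply_le [MeasurableSpace E] [BorelSpace E] [Nontrivial E] :
    ∃ C : ℝ, 0 ≤ C ∧ ∀ A ∈ unitDet E, ∀ v : E, ‖v‖ = 1 →
      |Real.log ‖A v‖| ≤ C + finrank ℝ E * Real.log ‖A‖ := by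
  classical
  set d := finrank ℝ E with hd
  set b := finBasis ℝ E
  set adj : (E →L[ℝ] E) → E →L[ℝ] E := fun A => LinearMap.toContinuousLinearMap
    (Matrix.toLin b b (LinearMap.toMatrix b b (A : E →ₗ[ℝ] E)).adjugate) with hadj
  have hcont : Continuous adj := by
    have h1 : Continuous fun A : E →L[ℝ] E => LinearMap.toMatrix b b (A : E →ₗ[ℝ] E) :=
      ((LinearMap.toMatrix b b).toLinearMap ∘ₗ
        ContinuousLinearMap.coeLM ℝ).continuous_of_finiteDimensional
    have h2 : Continuous fun M : Matrix (Fin d) (Fin d) ℝ =>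
        LinearMap.toContinuousLinearMap (Matrix.toLin b b M) :=
      (LinearMap.toContinuousLinearMap.toLinearMap ∘ₗ
        (Matrix.toLin b b).toLinearMap).continuous_of_finiteDimensional
    exact h2.comp (h1.matrix_adjugate)
  obtain ⟨C, hC⟩ := ((isCompact_sphere (0 : E →L[ℝ] E) 1).image (hcont.norm)).bddAbove
  set C' := max C 1
  refine ⟨Real.log C', Real.log_nonneg (le_max_right _ _), fun A hA v hv => ?_⟩
  have hA1 : 1 ≤ ‖A‖ := one_le_norm hA
  have hApos : 0 < ‖A‖ := one_pos.trans_le hA1
  have hlogA : 0 ≤ Real.log ‖A‖ := Real.log_nonneg hA1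
  have hbound : ‖adj A‖ ≤ C' * ‖A‖ ^ (d - 1) := by
    set H := ‖A‖⁻¹ • A
    have hH : ‖H‖ = 1 := by rw [norm_smul, norm_inv, norm_norm, inv_mul_cancel₀ hApos.ne']
    have hAH : A = ‖A‖ • H := by simp [H, smul_smul, hApos.ne']
    have h1 : adj A = ‖A‖ ^ (d - 1) • adj H := by
      conv_lhs => rw [hAH]
      simp only [hadj, ContinuousLinearMap.toLinearMap_smul, map_smul, Matrix.adjugate_smul,
        Fintype.card_fin]
      rfl
    have h2 : ‖adj H‖ ≤ C' :=
      (hC ⟨H, mem_sphere_zero_iff_norm.2 hH, rfl⟩).trans (le_max_left _ _)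
    rw [h1, norm_smul, norm_pow, norm_norm, mul_comm C']
    exact mul_le_mul_of_nonneg_left h2 (by positivity)
  have happ : adj A (A v) = LinearMap.det (A : E →ₗ[ℝ] E) • v := by
    show Matrix.toLin b b (LinearMap.toMatrix b b (A : E →ₗ[ℝ] E)).adjugate
      ((A : E →ₗ[ℝ] E) v) = _
    conv_lhs => arg 2; rw [← Matrix.toLin_toMatrix b b (A : E →ₗ[ℝ] E)]
    rw [← Matrix.toLin_mul_apply, Matrix.adjugate_mul, map_smul, Matrix.toLin_one,
      LinearMap.det_toMatrix]
    rfl
  have h1 : 1 ≤ C' * ‖A‖ ^ (d - 1) * ‖A v‖ := by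
    have h := congrArg (‖·‖) happ
    simp only [norm_smul, Real.norm_eq_abs, show |LinearMap.det (A : E →ₗ[ℝ] E)| = 1 from hA,
      hv, one_mul] at h
    rw [← h]
    exact ((adj A).le_opNorm _).trans (mul_le_mul_of_nonneg_right hbound (norm_nonneg _))
  have hC'pos : (0 : ℝ) < C' := one_pos.trans_le (le_max_right _ _)
  have hAv : 0 < ‖A v‖ := norm_pos_iff.2 (apply_ne_zero hA (by simp [← norm_ne_zero_iff, hv]))
  have hlow := Real.log_le_log one_pos h1
  rw [Real.log_one, Real.log_mul (by positivity) hAv.ne', Real.log_mul hC'pos.ne' (by positivity),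
    Real.log_pow] at hlow
  have hup : Real.log ‖A v‖ ≤ Real.log ‖A‖ :=
    Real.log_le_log hAv (by simpa [hv] using A.le_opNorm v)
  have hd1 : (1 : ℝ) ≤ d := Nat.one_le_cast.2 finrank_pos
  have hd2 : (((d - 1 : ℕ) : ℝ)) ≤ d := Nat.cast_le.2 (Nat.sub_le _ _)
  have hC0 : 0 ≤ Real.log C' := Real.log_nonneg (le_max_right _ _)
  rw [abs_le]
  constructor
  · nlinarith
  · nlinarith

omit [FiniteDimensional ℝ E] in
theorem randProd_add (m n : ℕ) (x : ℕ → E →L[ℝ] E) :
    randProd (m + n) x = randProd n (shift^[m] x) * randProd m x :=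
  cocycleProd_add shift (fun y => y 0) m n x

theorem shift_iterate_apply {α : Type*} (m : ℕ) (x : ℕ → α) (i : ℕ) :
    shift^[m] x i = x (i + m) := by
  induction m generalizing x i with
  | zero => rfl
  | succ m ih => rw [Function.iterate_succ_apply, ih]; exact congrArg x (by omega)

variable [MeasurableSpace E] [BorelSpace E]

theorem measurable_log_apply {α : Type*} [MeasurableSpace α] {f : α → E →L[ℝ] E} {g : α → E}
    (hf : Measurable f) (hg : Measurable g) : Measurable fun a => Real.log ‖f a (g a)‖ :=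
  Real.measurable_log.comp
    (continuous_norm.measurable.comp (measurable_eval.comp (hf.prodMk hg)))

variable [Nontrivial E] (μ : Measure (E →L[ℝ] E)) [IsProbabilityMeasure μ]

theorem log_norm_randProd_succ_le {x : ℕ → E →L[ℝ] E} (hx : ∀ i, x i ∈ unitDet E) (n : ℕ) :
    Real.log ‖randProd (n + 1) x‖ ≤ Real.log ‖x n‖ + Real.log ‖randProd n x‖ := by
  rw [← Real.log_mul (one_pos.trans_le (one_le_norm (hx n))).ne'
    (one_pos.trans_le (one_le_norm (randProd_mem_unitDet hx n))).ne']
  refine Real.log_le_log (one_pos.trans_le (one_le_norm (randProd_mem_unitDet hx (n + 1)))) ?_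
  rw [randProd_succ']
  exact norm_mul_le _ _

theorem integrable_log_randProd (hμ : ∀ᵐ A ∂μ, A ∈ unitDet E)
    (hint : Integrable (fun A => Real.log ‖A‖) μ) (n : ℕ) :
    Integrable (fun x => Real.log ‖randProd n x‖) (Measure.infinitePi fun _ : ℕ => μ) := by
  induction n with
  | zero => simp [randProd, cocycleProd]
  | succ n ih =>
    refine (((measurePreserving_eval_infinitePi (fun _ : ℕ => μ) n).integrable_comp_of_integrable
      hint).add ih).mono' (Real.measurable_log.comp
        (continuous_norm.measurable.comp (measurable_randProd _))).aestronglyMeasurable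
      ((ae_all_unitDet μ hμ).mono fun x hx => ?_)
    rw [Real.norm_of_nonneg (Real.log_nonneg (one_le_norm (randProd_mem_unitDet hx _)))]
    exact log_norm_randProd_succ_le hx n

theorem integrable_log_apply (hμ : ∀ᵐ A ∂μ, A ∈ unitDet E)
    (hint : Integrable (fun A => Real.log ‖A‖) μ) (v : Sph E) :
    Integrable (fun A => Real.log ‖A (v : E)‖) μ := by
  obtain ⟨C, -, hC⟩ := exists_abs_log_apply_le (E := E)
  refine ((integrable_const C).add (hint.const_mul (finrank ℝ E : ℝ))).mono'
    (measurable_log_apply measurable_id measurable_const).aestronglyMeasurable ?_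
  filter_upwards [hμ] with A hA
  exact hC A hA v (norm_eq_of_mem_sphere v)

/-- The upper bound for the growth of all vectors. -/
theorem eventually_apply_le {γ : ℝ} {x : ℕ → E →L[ℝ] E} (hx : ∀ i, x i ∈ unitDet E)
    (hlim : Tendsto (fun n : ℕ => Real.log ‖randProd n x‖ / n) atTop (𝓝 γ)) {v : E} (hv : v ≠ 0)
    {c : ℝ} (hc : γ < c) :
    ∀ᶠ n : ℕ in atTop, Real.log ‖randProd n x v‖ ≤ c * n := by
  obtain ⟨c₁, h1, h2⟩ := exists_between hc
  filter_upwards [hlim.eventually (eventually_lt_nhds h1), eventually_gt_atTop 0,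
    (tendsto_natCast_atTop_atTop.const_mul_atTop (sub_pos.2 h2)).eventually
      (eventually_ge_atTop (Real.log ‖v‖))] with n hn hn0 hnv
  rw [div_lt_iff₀ (Nat.cast_pos.2 hn0)] at hn
  have hQ := randProd_mem_unitDet hx n
  have h := Real.log_le_log (norm_pos_iff.2 (apply_ne_zero hQ hv)) ((randProd n x).le_opNorm v)
  rw [Real.log_mul (one_pos.trans_le (one_le_norm hQ)).ne' (norm_ne_zero_iff.2 hv)] at h
  linarith

end FA.FurstenbergKifer
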