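import Fermat.Agent.FurstenbergKifer.Basic

/-!
# The random subspace of slow vectors contains no given vector

Let `V x` be the subspace of the vectors growing more slowly than `γ`.  Strong irreducibility
leaves no family of subspaces of greatest dimension and greatest probability of lying in `V`.
-/

set_option autoImplicit false

noncomputable section

namespace FA.FurstenbergKifer

open MeasureTheory Filter Topology Module Set Metric
open FA.FurstenbergLyapunov
open scoped RealInnerProductSpace ENNReal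

variable {E : Type*} [NormedAddCommGroup E] [InnerProductSpace ℝ E] [FiniteDimensional ℝ E]

omit [InnerProductSpace ℝ E] [FiniteDimensional ℝ E] in
/-- A function with small sums attains a greatest value, at finitely many places. -/
theorem exists_max_finset {ι : Type*} (P : ι → Prop) (p : ι → ℝ≥0∞)
    (hsum : ∀ S : Finset ι, (∀ i ∈ S, P i) → ∑ i ∈ S, p i ≤ 1) {i₀ : ι} (h0 : P i₀)
    (hp : p i₀ ≠ 0) :
    ∃ (F : Finset ι) (m : ℝ≥0∞), m ≠ 0 ∧ m ≠ ⊤ ∧ F.Nonempty ∧ (∀ i, P i → p i ≤ m) ∧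
      ∀ i, i ∈ F ↔ P i ∧ p i = m := by
  classical
  set T : Set ι := {i | P i ∧ p i₀ ≤ p i} with hT
  have hfin : T.Finite := by
    by_contra hinf
    obtain ⟨n, hn⟩ : ∃ n : ℕ, 1 < n * p i₀ := ENNReal.exists_nat_mul_gt hp ENNReal.one_ne_top
    obtain ⟨S, hST, hS⟩ := (Set.not_finite.1 hinf).exists_subset_card_eq n
    have h2 : (n : ℝ≥0∞) * p i₀ ≤ 1 := by
      calc (n : ℝ≥0∞) * p i₀ = ∑ _i ∈ S, p i₀ := by rw [Finset.sum_const, hS, nsmul_eq_mul]
        _ ≤ ∑ i ∈ S, p i := Finset.sum_le_sum fun i hi => (hST hi).2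
        _ ≤ 1 := hsum S fun i hi => (hST hi).1
    exact absurd hn (not_lt.2 h2)
  obtain ⟨i₁, hi₁, hmax⟩ := hfin.toFinset.exists_max_image p
    ⟨i₀, hfin.mem_toFinset.2 ⟨h0, le_rfl⟩⟩
  obtain ⟨hi₁P, hi₁le⟩ := hfin.mem_toFinset.1 hi₁
  have hle : ∀ i, P i → p i ≤ p i₁ := fun i hi => by
    by_cases h : p i₀ ≤ p i
    · exact hmax i (hfin.mem_toFinset.2 ⟨hi, h⟩)
    · exact (le_of_not_ge h).trans hi₁le
  refine ⟨hfin.toFinset.filter fun i => p i = p i₁, p i₁,
    fun h => hp (le_antisymm (h ▸ hle i₀ h0) zero_le), ne_top_of_le_ne_top ENNReal.one_ne_top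
      (by simpa using hsum {i₁} (by simpa using hi₁P)),
    ⟨i₁, Finset.mem_filter.2 ⟨hi₁, rfl⟩⟩, hle, fun i => ⟨fun h => ?_, fun h => ?_⟩⟩
  · obtain ⟨h1, h2⟩ := Finset.mem_filter.1 h
    exact ⟨(hfin.mem_toFinset.1 h1).1, h2⟩
  · exact Finset.mem_filter.2 ⟨hfin.mem_toFinset.2 ⟨h.1, hi₁le.trans h.2.ge⟩, h.2⟩

/-- The vectors which grow more slowly than `γ` along the products of `x`. -/
def slow (γ : ℝ) (x : ℕ → E →L[ℝ] E) : Submodule ℝ E where
  carrier := {v | ∃ c < γ, ∀ᶠ n : ℕ in atTop, ‖randProd n x v‖ ≤ Real.exp (c * n)}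
  zero_mem' := ⟨γ - 1, by linarith, .of_forall fun n => by simp [(Real.exp_pos _).le]⟩
  add_mem' := by
    rintro v w ⟨c₁, hc₁, h₁⟩ ⟨c₂, hc₂, h₂⟩
    obtain ⟨c, hc, hcγ⟩ := exists_between (max_lt hc₁ hc₂)
    refine ⟨c, hcγ, ?_⟩
    filter_upwards [h₁, h₂, eventually_mul_exp_le 2 hc] with n hn₁ hn₂ hn
    rw [map_add]
    refine (norm_add_le _ _).trans (le_trans ?_ hn)
    have e1 : Real.exp (c₁ * n) ≤ Real.exp (max c₁ c₂ * n) := Real.exp_le_exp.2
      (mul_le_mul_of_nonneg_right (le_max_left _ _) (Nat.cast_nonneg n))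
    have e2 : Real.exp (c₂ * n) ≤ Real.exp (max c₁ c₂ * n) := Real.exp_le_exp.2
      (mul_le_mul_of_nonneg_right (le_max_right _ _) (Nat.cast_nonneg n))
    linarith
  smul_mem' := by
    rintro a v ⟨c, hc, h⟩
    obtain ⟨c', hc', hγ⟩ := exists_between hc
    refine ⟨c', hγ, ?_⟩
    filter_upwards [h, eventually_mul_exp_le ‖a‖ hc'] with n hn hn'
    rw [map_smul, norm_smul]
    exact (mul_le_mul_of_nonneg_left hn (norm_nonneg a)).trans hn'

omit [FiniteDimensional ℝ E] in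
theorem mem_slow_iff_shift {γ : ℝ} {x : ℕ → E →L[ℝ] E} {v : E} :
    v ∈ slow γ x ↔ x 0 v ∈ slow γ (shift x) := by
  have key : ∀ n, randProd n (shift x) (x 0 v) = randProd (n + 1) x v := fun n => by
    rw [randProd_succ, mul_apply_eq_comp]
  constructor
  · rintro ⟨c, hc, h⟩
    obtain ⟨c', hc', hγ⟩ := exists_between hc
    refine ⟨c', hγ, ?_⟩
    filter_upwards [(tendsto_add_atTop_nat 1).eventually h,
      eventually_mul_exp_le (Real.exp c) hc'] with n hn hn'
    rw [key]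
    refine hn.trans (le_trans (le_of_eq ?_) hn')
    rw [← Real.exp_add]
    push_cast
    ring_nf
  · rintro ⟨c, hc, h⟩
    obtain ⟨c', hc', hγ⟩ := exists_between hc
    refine ⟨c', hγ, ?_⟩
    obtain ⟨N, hN⟩ := eventually_atTop.1 (h.and
      ((tendsto_add_atTop_nat 1).eventually (eventually_mul_exp_le (Real.exp (-c)) hc')))
    refine eventually_atTop.2 ⟨N + 1, fun n hn => ?_⟩
    obtain ⟨m, rfl⟩ : ∃ m, n = m + 1 := ⟨n - 1, by omega⟩
    rw [← key]
    refine (hN m (by omega)).1.trans (le_trans (le_of_eq ?_) (hN m (by omega)).2)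
    rw [← Real.exp_add]
    push_cast
    ring_nf

variable [MeasurableSpace E] [BorelSpace E] [Nontrivial E]

theorem slow_ne_top {γ : ℝ} {x : ℕ → E →L[ℝ] E} (hx : ∀ i, x i ∈ unitDet E)
    (hlim : Tendsto (fun n : ℕ => Real.log ‖randProd n x‖ / n) atTop (𝓝 γ)) :
    slow γ x ≠ ⊤ := fun htop => by
  set b := stdOrthonormalBasis ℝ E
  have hb : ∀ i, ∃ c < γ, ∀ᶠ n : ℕ in atTop, ‖randProd n x (b i)‖ ≤ Real.exp (c * n) :=
    fun i => (htop ▸ Submodule.mem_top : b i ∈ slow γ x)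
  choose c hc hev using hb
  have hne : Nonempty (Fin (finrank ℝ E)) := ⟨⟨0, finrank_pos⟩⟩
  obtain ⟨i₀, -, hi₀⟩ := Finset.univ.exists_max_image c Finset.univ_nonempty
  obtain ⟨c', h1, h2⟩ := exists_between (hc i₀)
  obtain ⟨n, hn, hM, hlt, hn0⟩ := ((eventually_all.2 hev).and
    ((eventually_mul_exp_le (finrank ℝ E : ℝ) h1).and
      ((hlim.eventually (eventually_gt_nhds h2)).and (eventually_gt_atTop 0)))).exists
  rw [lt_div_iff₀ (Nat.cast_pos.2 hn0)] at hlt
  have hQ := one_pos.trans_le (one_le_norm (randProd_mem_unitDet hx n))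
  have hnorm : ‖randProd n x‖ ≤ (finrank ℝ E : ℝ) * Real.exp (c i₀ * n) := by
    refine ContinuousLinearMap.opNorm_le_bound _ (by positivity) fun v => ?_
    conv_lhs => rw [← b.sum_repr' v]
    rw [map_sum]
    refine (norm_sum_le _ _).trans ?_
    calc ∑ i, ‖randProd n x (⟪b i, v⟫ • b i)‖ ≤ ∑ _i : Fin (finrank ℝ E),
        ‖v‖ * Real.exp (c i₀ * n) := by
          refine Finset.sum_le_sum fun i _ => ?_
          rw [map_smul, norm_smul]
          refine mul_le_mul ?_ ((hn i).trans (Real.exp_le_exp.2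
            (mul_le_mul_of_nonneg_right (hi₀ i (Finset.mem_univ i)) (Nat.cast_nonneg n))))
            (norm_nonneg _) (norm_nonneg _)
          simpa [b.orthonormal.1 i] using abs_real_inner_le_norm (b i) v
      _ = _ := by rw [Finset.sum_const, Finset.card_univ, Fintype.card_fin, nsmul_eq_mul]; ring
  exact absurd ((Real.log_le_iff_le_exp hQ).2 (hnorm.trans hM)) (not_le.2 hlt)

omit [Nontrivial E] in
theorem measurableSet_mem_slow (γ : ℝ) {α : Type*} [MeasurableSpace α]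
    {X : α → ℕ → E →L[ℝ] E} {V : α → E} (hX : Measurable X) (hV : Measurable V) :
    MeasurableSet {a | V a ∈ slow γ (X a)} := by
  have h : {a | V a ∈ slow γ (X a)} = ⋃ (q : ℚ) (_ : (q : ℝ) < γ) (N : ℕ),
      ⋂ (n : ℕ) (_ : N ≤ n), {a | ‖randProd n (X a) (V a)‖ ≤ Real.exp (q * n)} := by
    ext a
    simp only [mem_iUnion, mem_iInter, exists_prop, mem_ofPred_eq]
    constructor
    · rintro ⟨c, hc, hev⟩
      obtain ⟨q, hq1, hq2⟩ := exists_rat_btwn hc
      obtain ⟨N, hN⟩ := eventually_atTop.1 hev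
      exact ⟨q, hq2, N, fun n hn => (hN n hn).trans
        (Real.exp_le_exp.2 (mul_le_mul_of_nonneg_right hq1.le (Nat.cast_nonneg n)))⟩
    · rintro ⟨q, hq, N, hN⟩
      exact ⟨q, hq, eventually_atTop.2 ⟨N, hN⟩⟩
  rw [h]
  refine MeasurableSet.iUnion fun q => MeasurableSet.iUnion fun _ => MeasurableSet.iUnion fun N =>
    MeasurableSet.iInter fun n => MeasurableSet.iInter fun _ => measurableSet_le ?_ measurable_const
  exact continuous_norm.measurable.comp
    (measurable_eval.comp (((measurable_randProd n).comp hX).prodMk hV))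

omit [MeasurableSpace E] [BorelSpace E] [Nontrivial E] in
theorem le_iff_forall_basis (U W : Submodule ℝ E) :
    U ≤ W ↔ ∀ i, ((finBasis ℝ U i : U) : E) ∈ W := by
  refine ⟨fun h i => h (finBasis ℝ U i).2, fun h u hu => ?_⟩
  have h1 : (⊤ : Submodule ℝ U) ≤ W.comap U.subtype := by
    rw [← (finBasis ℝ U).span_eq, Submodule.span_le]
    rintro _ ⟨i, rfl⟩
    exact h i
  exact h1 (Submodule.mem_top (x := (⟨u, hu⟩ : U)))

omit [Nontrivial E] in
theorem measurableSet_map_le_slow (γ : ℝ) (U : Submodule ℝ E) {α : Type*} [MeasurableSpace α]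
    {X : α → ℕ → E →L[ℝ] E} {A : α → E →L[ℝ] E} (hX : Measurable X) (hA : Measurable A) :
    MeasurableSet {a | U.map (A a : E →ₗ[ℝ] E) ≤ slow γ (X a)} := by
  simp only [Submodule.map_le_iff_le_comap, le_iff_forall_basis U, ofPred_forall]
  exact MeasurableSet.iInter fun i => measurableSet_mem_slow γ hX
    (measurable_eval.comp (hA.prodMk measurable_const))

variable (μ : Measure (E →L[ℝ] E)) [IsProbabilityMeasure μ]

/-- **No vector is slow.** -/
theorem ae_not_slow (hμ : ∀ᵐ A ∂μ, A ∈ unitDet E) (hsi : StronglyIrreducible μ.support) {γ : ℝ}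
    (hlim : ∀ᵐ x ∂(Measure.infinitePi fun _ : ℕ => μ),
      Tendsto (fun n : ℕ => Real.log ‖randProd n x‖ / n) atTop (𝓝 γ)) {v : E} (hv : v ≠ 0) :
    ∀ᵐ x ∂(Measure.infinitePi fun _ : ℕ => μ), v ∉ slow γ x := by
  classical
  set π := Measure.infinitePi fun _ : ℕ => μ with hπ
  set p : Submodule ℝ E → ℝ≥0∞ := fun U => π {x | U ≤ slow γ x} with hp
  have hpm : ∀ U : Submodule ℝ E, MeasurableSet {x : ℕ → E →L[ℝ] E | U ≤ slow γ x} := fun U => by
    simp only [le_iff_forall_basis U, ofPred_forall]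
    exact MeasurableSet.iInter fun i => measurableSet_mem_slow γ measurable_id measurable_const
  have hptop : p ⊤ = 0 := by
    refine measure_eq_zero_iff_ae_notMem.2 ?_
    filter_upwards [hlim, ae_all_unitDet μ hμ] with x hx hxu
    exact fun h => slow_ne_top hxu hx (top_le_iff.1 h)
  refine measure_eq_zero_iff_ae_notMem.1 (?_ : π {x | v ∈ slow γ x} = 0)
  by_contra hpos
  set Q : ℕ → Prop := fun k => ∃ U : Submodule ℝ E, finrank ℝ U = k ∧ p U ≠ 0 with hQ
  have hline : Q (finrank ℝ (Submodule.span ℝ {v})) := ⟨_, rfl, by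
    simpa only [hp, Submodule.span_singleton_le_iff_mem] using hpos⟩
  set k := Nat.findGreatest Q (finrank ℝ E) with hk
  obtain ⟨U₀, hU₀, hU₀p⟩ : Q k := Nat.findGreatest_spec (Submodule.finrank_le _) hline
  have hk0 : 0 < k := lt_of_lt_of_le (by rw [finrank_span_singleton hv]; exact one_pos)
    (Nat.le_findGreatest (Submodule.finrank_le _) hline)
  have hgt : ∀ W : Submodule ℝ E, k < finrank ℝ W → p W = 0 := fun W hW => by
    by_contra h
    exact Nat.findGreatest_is_greatest hW (Submodule.finrank_le W) ⟨W, rfl, h⟩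
  have hkd : k < finrank ℝ E := by
    refine hU₀ ▸ Submodule.finrank_lt fun h => hU₀p ?_
    rw [h]
    exact hptop
  have hsum : ∀ S : Finset (Submodule ℝ E), (∀ U ∈ S, finrank ℝ U = k) →
      ∑ U ∈ S, p U ≤ 1 := fun S hS => by
    have h1 : ∑ U ∈ S, p U = π (⋃ U ∈ S, {x | U ≤ slow γ x}) := by
      refine (measure_biUnion_finset₀ (fun U hU W hW hne => ?_)
        fun U _ => (hpm U).nullMeasurableSet).symm
      refine measure_mono_null (fun x hx => ?_) (hgt (U ⊔ W) ?_)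
      · show U ⊔ W ≤ slow γ x
        exact sup_le (show U ≤ slow γ x from hx.1) (show W ≤ slow γ x from hx.2)
      · refine (hS U hU).symm.trans_lt (Submodule.finrank_lt_finrank_of_lt
          (lt_of_le_of_ne le_sup_left fun h => hne ?_))
        exact (Submodule.eq_of_le_of_finrank_le (h ▸ le_sup_right)
          (by rw [hS U hU, hS W hW])).symm
    exact h1 ▸ prob_le_one
  obtain ⟨F, m, hm0, hmtop, hFne, hmax, hF⟩ :=
    exists_max_finset (fun U : Submodule ℝ E => finrank ℝ U = k) p hsum hU₀ hU₀p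
  refine hsi ⟨F, hFne, fun W hW => ?_, ?_⟩
  · obtain ⟨hWk, -⟩ := (hF W).1 hW
    exact ⟨fun h => by rw [h, finrank_bot] at hWk; omega,
      fun h => by rw [h, finrank_top] at hWk; omega⟩
  -- one step of the walk
  have hrec : ∀ U, p U = ∫⁻ A, p (U.map (A : E →ₗ[ℝ] E)) ∂μ := fun U => by
    have hS : MeasurableSet {q : (E →L[ℝ] E) × (ℕ → E →L[ℝ] E) |
        U.map (q.1 : E →ₗ[ℝ] E) ≤ slow γ q.2} :=
      measurableSet_map_le_slow γ U measurable_snd measurable_fst
    have heq : {x : ℕ → E →L[ℝ] E | U ≤ slow γ x} = (fun x => (x 0, shift x)) ⁻¹'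
        {q : (E →L[ℝ] E) × (ℕ → E →L[ℝ] E) | U.map (q.1 : E →ₗ[ℝ] E) ≤ slow γ q.2} := by
      ext x
      simp only [mem_preimage, mem_ofPred_eq, Submodule.map_le_iff_le_comap]
      exact ⟨fun h u hu => mem_slow_iff_shift.1 (h hu),
        fun h u hu => mem_slow_iff_shift.2 (h hu)⟩
    show π _ = _
    rw [heq, ← Measure.map_apply ((measurable_pi_apply 0).prodMk measurable_shift) hS,
      hπ, map_split_infinitePi μ, Measure.prod_apply hS]
    rfl
  have hclosed : IsClosed (⋂ U ∈ F, ⋃ W ∈ F, ⋂ u ∈ U,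
      (fun A : E →L[ℝ] E => A u) ⁻¹' (W : Set E)) :=
    isClosed_biInter fun U _ => isClosed_biUnion_finset fun W _ => isClosed_biInter fun u _ =>
      W.closed_of_finiteDimensional.preimage (ContinuousLinearMap.apply ℝ E u).continuous
  have hdim : ∀ U : Submodule ℝ E, finrank ℝ U = k → ∀ A ∈ unitDet E,
      finrank ℝ (U.map (A : E →ₗ[ℝ] E)) = k := fun U hU A hA => by
    rw [← hU]
    exact (Submodule.equivMapOfInjective _ (injective_of_unitDet hA) U).finrank_eq.symm
  have hmem : ∀ U ∈ F, ∀ᵐ A : E →L[ℝ] E ∂μ, U.map (A : E →ₗ[ℝ] E) ∈ F := fun U hU => by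
    obtain ⟨hUk, hUm⟩ := (hF U).1 hU
    have hmeas : Measurable fun A : E →L[ℝ] E => p (U.map (A : E →ₗ[ℝ] E)) :=
      measurable_measure_prodMk_left
        (measurableSet_map_le_slow γ U measurable_snd measurable_fst)
    have hle : (fun A : E →L[ℝ] E => p (U.map (A : E →ₗ[ℝ] E))) ≤ᵐ[μ] fun _ => m :=
      hμ.mono fun A hA => hmax _ (hdim U hUk A hA)
    have heq := ae_eq_of_ae_le_of_lintegral_le hle
      (by rw [← hrec U, hUm]; exact hmtop) aemeasurable_const
      (by rw [← hrec U, hUm, lintegral_const, measure_univ, mul_one])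
    filter_upwards [heq, hμ] with A hA hA1
    exact (hF _).2 ⟨hdim U hUk A hA1, hA⟩
  have hae : (⋂ U ∈ F, ⋃ W ∈ F, ⋂ u ∈ U, (fun A : E →L[ℝ] E => A u) ⁻¹' (W : Set E)) ∈ ae μ := by
    refine (biInter_finset_mem F).2 fun U hU => (hmem U hU).mono fun A hA => ?_
    exact mem_iUnion₂.2 ⟨_, hA, mem_iInter₂.2 fun u hu => Submodule.mem_map_of_mem hu⟩
  intro A hA U hU
  have hA1 : A ∈ unitDet E := Measure.support_subset_of_isClosed isClosed_unitDet hμ hA
  have hAmem := mem_iInter₂.1 (Measure.support_subset_of_isClosed hclosed hae hA) U hU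
  obtain ⟨W, hW, hAW⟩ := mem_iUnion₂.1 hAmem
  have hsub : U.map (A : E →ₗ[ℝ] E) ≤ W := by
    rintro _ ⟨u, hu, rfl⟩
    exact mem_iInter₂.1 hAW u hu
  rwa [Submodule.eq_of_le_of_finrank_le hsub
    (by rw [hdim U ((hF U).1 hU).1 A hA1, ((hF W).1 hW).1])]

/-- For every unit vector the upper growth rate is `γ`. -/
theorem eq_of_tendsto_apply {γ G : ℝ} {x : ℕ → E →L[ℝ] E} {v : E} (hv : v ≠ 0)
    (hx : ∀ i, x i ∈ unitDet E)
    (hlim : Tendsto (fun n : ℕ => Real.log ‖randProd n x‖ / n) atTop (𝓝 γ))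
    (hns : v ∉ slow γ x)
    (hG : Tendsto (fun n : ℕ => Real.log ‖randProd n x v‖ / n) atTop (𝓝 G)) : G = γ := by
  refine le_antisymm ?_ ?_
  · by_contra h
    obtain ⟨c, h1, h2⟩ := exists_between (not_le.1 h)
    obtain ⟨n, hn, hn', hn0⟩ := ((eventually_apply_le hx hlim hv h1).and
      ((hG.eventually (eventually_gt_nhds h2)).and (eventually_gt_atTop 0))).exists
    rw [lt_div_iff₀ (Nat.cast_pos.2 hn0)] at hn'
    linarith
  · by_contra h
    obtain ⟨c, h1, h2⟩ := exists_between (not_le.1 h)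
    refine hns ⟨c, h2, ?_⟩
    filter_upwards [hG.eventually (eventually_lt_nhds h1), eventually_gt_atTop 0] with n hn hn0
    rw [div_lt_iff₀ (Nat.cast_pos.2 hn0)] at hn
    exact (Real.log_le_iff_le_exp
      (norm_pos_iff.2 (apply_ne_zero (randProd_mem_unitDet hx n) hv))).1 hn.le

end FA.FurstenbergKifer
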