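import Fermat.Agent.FurstenbergKifer.Null
import Fermat.Agent.PointwiseErgodic.Birkhoff
import Mathlib.MeasureTheory.Measure.Prokhorov
import Mathlib.MeasureTheory.Measure.LevyProkhorovMetric

/-!
# Stationary measures on the sphere and Furstenberg's formula

Birkhoff's theorem on the sphere times the sequences gives a growth rate for almost every vector,
which can only be `γ`, so that every stationary measure gives the mean growth `γ`.
-/

set_option autoImplicit false

noncomputable section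

namespace FA.FurstenbergKifer

open MeasureTheory Filter Topology Module Set Metric
open FA.FurstenbergLyapunov
open scoped RealInnerProductSpace ENNReal BoundedContinuousFunction

variable {E : Type*} [NormedAddCommGroup E] [InnerProductSpace ℝ E] [FiniteDimensional ℝ E]
  [MeasurableSpace E] [BorelSpace E] [Nontrivial E]

omit [Nontrivial E] in
theorem measurable_eval_sph {α : Type*} [MeasurableSpace α] {f : α → E →L[ℝ] E}
    {g : α → Sph E} (hf : Measurable f) (hg : Measurable g) :
    Measurable fun a => f a (g a : E) :=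
  measurable_eval.comp (hf.prodMk (measurable_subtype_coe.comp hg))

theorem measurable_act_pair {α : Type*} [MeasurableSpace α] {f : α → E →L[ℝ] E}
    {g : α → Sph E} (hf : Measurable f) (hg : Measurable g) :
    Measurable fun a => act (f a) (g a) :=
  measurable_dir.comp (measurable_eval_sph hf hg)

omit [FiniteDimensional ℝ E] [MeasurableSpace E] [BorelSpace E] in
theorem act_eq (A : E →L[ℝ] E) (v : Sph E) : act A v = dir (A (v : E)) := rfl

omit [MeasurableSpace E] [BorelSpace E] in
theorem log_apply_act {A B : E →L[ℝ] E} (hA : A ∈ unitDet E) (hB : B ∈ unitDet E) (v : Sph E) :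
    Real.log ‖(B * A) (v : E)‖ =
      Real.log ‖A (v : E)‖ + Real.log ‖B (act A v : E)‖ := by
  have h1 := norm_pos_iff.2 (apply_ne_zero hA (sph_ne_zero v))
  have h2 := apply_ne_zero hB (norm_pos_iff.1 h1)
  rw [act_eq, coe_dir (norm_pos_iff.1 h1), map_smul, norm_smul, norm_inv, norm_norm,
    mul_apply_eq_comp, Real.log_mul (inv_ne_zero h1.ne') (norm_ne_zero_iff.2 h2), Real.log_inv]
  ring

variable (μ : Measure (E →L[ℝ] E)) [IsProbabilityMeasure μ]

/-- One step of the walk on the sphere. -/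
def stepLaw (ν : Measure (Sph E)) : Measure (Sph E) :=
  (μ.prod ν).map fun p => act p.1 p.2

theorem isProbabilityMeasure_stepLaw (ν : Measure (Sph E)) [IsProbabilityMeasure ν] :
    IsProbabilityMeasure (stepLaw μ ν) :=
  Measure.isProbabilityMeasure_map
    (measurable_act_pair measurable_fst measurable_snd).aemeasurable

/-- The skew product. -/
def skew (p : Sph E × (ℕ → E →L[ℝ] E)) : Sph E × (ℕ → E →L[ℝ] E) :=
  (act (p.2 0) p.1, shift p.2)

theorem measurable_skew : Measurable (skew (E := E)) :=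
  (measurable_act_pair ((measurable_pi_apply 0).comp measurable_snd) measurable_fst).prodMk
    (measurable_shift.comp measurable_snd)

theorem measurePreserving_skew {ν : Measure (Sph E)} [IsProbabilityMeasure ν]
    (hν : stepLaw μ ν = ν) :
    MeasurePreserving skew (ν.prod (Measure.infinitePi fun _ : ℕ => μ))
      (ν.prod (Measure.infinitePi fun _ : ℕ => μ)) := by
  refine ⟨measurable_skew, (Measure.prod_eq fun S B hS hB => ?_).symm⟩
  set π := Measure.infinitePi fun _ : ℕ => μ with hπ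
  have hm : Measurable fun p : (E →L[ℝ] E) × Sph E => act p.1 p.2 :=
    measurable_act_pair measurable_fst measurable_snd
  have hsec : ∀ v : Sph E, π {x | act (x 0) v ∈ S ∧ shift x ∈ B} =
      μ {A | act A v ∈ S} * π B := fun v => by
    have hmA : MeasurableSet {A : E →L[ℝ] E | act A v ∈ S} :=
      (hm.comp (measurable_id.prodMk measurable_const)) hS
    rw [← Measure.prod_prod, hπ, ← map_split_infinitePi μ,
      Measure.map_apply ((measurable_pi_apply 0).prodMk measurable_shift) (hmA.prod hB)]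
    rfl
  have hswap : ∫⁻ v, μ {A | act A v ∈ S} ∂ν = ν S := by
    conv_rhs => rw [← hν, stepLaw, Measure.map_apply hm hS,
      Measure.prod_apply_symm (hm hS)]
    rfl
  rw [Measure.map_apply measurable_skew (hS.prod hB),
    Measure.prod_apply (measurable_skew (hS.prod hB))]
  show ∫⁻ v, π {x | act (x 0) v ∈ S ∧ shift x ∈ B} ∂ν = ν S * π B
  rw [lintegral_congr hsec, lintegral_mul_const _ ?_, hswap]
  exact measurable_measure_prodMk_right (hm hS)

omit [MeasurableSpace E] [BorelSpace E] in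
theorem birkhoffSum_skew {x : ℕ → E →L[ℝ] E} (hx : ∀ i, x i ∈ unitDet E) (n : ℕ) (v : Sph E) :
    birkhoffSum skew (fun p : Sph E × (ℕ → E →L[ℝ] E) => Real.log ‖p.2 0 (p.1 : E)‖) n (v, x) =
      Real.log ‖randProd n x (v : E)‖ := by
  induction n generalizing x v with
  | zero => simp [randProd, FA.Kingman.cocycleProd]
  | succ n ih =>
    rw [birkhoffSum_succ']
    show _ + birkhoffSum skew _ n (act (x 0) v, shift x) = _
    rw [ih (x := shift x) (fun i => hx (i + 1)), randProd_succ,
      log_apply_act (B := randProd n (shift x)) (hx 0)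
        (randProd_mem_unitDet (x := shift x) (fun i => hx (i + 1)) n)]

omit [FiniteDimensional ℝ E] [BorelSpace E] [Nontrivial E] [IsProbabilityMeasure μ] in
theorem ae_prod_snd {ν : Measure (Sph E)} [IsProbabilityMeasure ν]
    {q : (ℕ → E →L[ℝ] E) → Prop}
    (h : ∀ᵐ x ∂(Measure.infinitePi fun _ : ℕ => μ), q x) :
    ∀ᵐ p ∂(ν.prod (Measure.infinitePi fun _ : ℕ => μ)), q p.2 :=
  Measure.quasiMeasurePreserving_snd.ae h

theorem integrable_log_pair (hμ : ∀ᵐ A ∂μ, A ∈ unitDet E)
    (hint : Integrable (fun A => Real.log ‖A‖) μ) (ν : Measure (Sph E)) [IsProbabilityMeasure ν] :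
    Integrable (fun p : Sph E × (ℕ → E →L[ℝ] E) => Real.log ‖p.2 0 (p.1 : E)‖)
      (ν.prod (Measure.infinitePi fun _ : ℕ => μ)) := by
  obtain ⟨C, -, hC⟩ := exists_abs_log_apply_le (E := E)
  have h1 := ((measurePreserving_eval_infinitePi (fun _ : ℕ => μ) 0).integrable_comp_of_integrable
    ((integrable_const C).add (hint.const_mul (finrank ℝ E : ℝ)))).comp_snd ν
  refine h1.mono' (measurable_log_apply ((measurable_pi_apply 0).comp measurable_snd)
    (measurable_subtype_coe.comp measurable_fst)).aestronglyMeasurable ?_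
  filter_upwards [ae_prod_snd μ (ae_all_unitDet μ hμ)] with p hp
  exact hC _ (hp 0) _ (norm_eq_of_mem_sphere p.1)

/-- **Furstenberg's formula.** -/
theorem stationary_formula (hμ : ∀ᵐ A ∂μ, A ∈ unitDet E) (hsi : StronglyIrreducible μ.support)
    (hint : Integrable (fun A => Real.log ‖A‖) μ) {γ : ℝ}
    (hlim : ∀ᵐ x ∂(Measure.infinitePi fun _ : ℕ => μ),
      Tendsto (fun n : ℕ => Real.log ‖randProd n x‖ / n) atTop (𝓝 γ))
    (ν : Measure (Sph E)) [IsProbabilityMeasure ν] (hν : stepLaw μ ν = ν) :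
    ∫ v, ∫ A, Real.log ‖A (v : E)‖ ∂μ ∂ν = γ := by
  set π := Measure.infinitePi fun _ : ℕ => μ with hπ
  set f : Sph E × (ℕ → E →L[ℝ] E) → ℝ := fun p => Real.log ‖p.2 0 (p.1 : E)‖
  have hT := measurePreserving_skew μ hν
  have hf : Integrable f (ν.prod π) := integrable_log_pair μ hμ hint ν
  have hns : ∀ᵐ p ∂(ν.prod π), (p.1 : E) ∉ slow γ p.2 :=
    (Measure.ae_prod_iff_ae_ae (measurableSet_mem_slow γ measurable_snd
      (measurable_subtype_coe.comp measurable_fst)).compl).2
      (.of_forall fun v => ae_not_slow μ hμ hsi hlim (sph_ne_zero v))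
  have hG : (ν.prod π)[f | MeasurableSpace.invariants skew] =ᵐ[ν.prod π] fun _ => γ := by
    filter_upwards [FA.PointwiseErgodic.tendsto_average hT hf, hns,
      ae_prod_snd μ hlim, ae_prod_snd μ (ae_all_unitDet μ hμ)] with p hp hpns hplim hpu
    refine eq_of_tendsto_apply (sph_ne_zero p.1) hpu hplim hpns (hp.congr fun n => ?_)
    rw [birkhoffAverage, smul_eq_mul, birkhoffSum_skew hpu n p.1, inv_mul_eq_div]
  have h1 : ∫ p, f p ∂(ν.prod π) = γ := by
    rw [← integral_condExp (MeasurableSpace.invariants_le skew) (f := f), integral_congr_ae hG]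
    simp
  rw [← h1, integral_prod f hf]
  refine integral_congr_ae (.of_forall fun v => ?_)
  show _ = ∫ x, Real.log ‖x 0 (v : E)‖ ∂π
  have hm : Measurable fun A : E →L[ℝ] E => Real.log ‖A (v : E)‖ :=
    measurable_log_apply measurable_id measurable_const
  rw [hπ]
  show ∫ A, Real.log ‖A (v : E)‖ ∂μ = _
  conv_lhs => rw [← (measurePreserving_eval_infinitePi (fun _ : ℕ => μ) 0).map_eq]
  exact integral_map (measurable_pi_apply 0).aemeasurable hm.aestronglyMeasurable

/-- A stationary measure gives no mass to a proper subspace. -/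
theorem stationary_mass_eq_zero (hμ : ∀ᵐ A ∂μ, A ∈ unitDet E)
    (hsi : StronglyIrreducible μ.support) (ν : Measure (Sph E)) [IsProbabilityMeasure ν]
    (hν : stepLaw μ ν = ν) {W₀ : Submodule ℝ E} (hW₀ : W₀ ≠ ⊤) : mass ν W₀ = 0 := by
  classical
  by_contra hpos
  have hex : ∃ k, ∃ U : Submodule ℝ E, finrank ℝ U = k ∧ mass ν U ≠ 0 := ⟨_, W₀, rfl, hpos⟩
  set k := Nat.find hex
  obtain ⟨U₁, hU₁, hU₁p⟩ : ∃ U : Submodule ℝ E, finrank ℝ U = k ∧ mass ν U ≠ 0 :=
    Nat.find_spec hex
  have hk0 : 0 < k := by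
    rw [Nat.pos_iff_ne_zero]
    intro h0
    rw [h0, Submodule.finrank_eq_zero] at hU₁
    refine hU₁p (measure_mono_null (fun v hv => ?_) measure_empty)
    exact sph_ne_zero v ((Submodule.mem_bot ℝ).1 (hU₁ ▸ hv))
  have hkd : k < finrank ℝ E :=
    (Nat.find_min' hex ⟨W₀, rfl, hpos⟩).trans_lt (Submodule.finrank_lt hW₀)
  have hsum : ∀ S : Finset (Submodule ℝ E), (∀ U ∈ S, finrank ℝ U = k) →
      ∑ U ∈ S, mass ν U ≤ 1 := fun S hS => by
    have h1 : ∑ U ∈ S, mass ν U = ν (⋃ U ∈ S, {v : Sph E | (v : E) ∈ U}) := by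
      refine (measure_biUnion_finset₀ (fun U hU W hW hne => ?_)
        fun U _ => (measurableSet_sphSet U).nullMeasurableSet).symm
      show mass ν (U ⊓ W) = 0
      by_contra h
      have hle := Nat.find_min' hex ⟨U ⊓ W, rfl, h⟩
      have e1 : U ⊓ W = U :=
        Submodule.eq_of_le_of_finrank_le inf_le_left ((hS U hU).le.trans hle)
      have e2 : U ⊓ W = W :=
        Submodule.eq_of_le_of_finrank_le inf_le_right ((hS W hW).le.trans hle)
      exact hne (e1.symm.trans e2)
    exact h1 ▸ prob_le_one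
  obtain ⟨F, m, -, hmtop, hFne, hmax, hF⟩ :=
    exists_max_finset (fun U : Submodule ℝ E => finrank ℝ U = k) (mass ν) hsum hU₁ hU₁p
  refine hsi ⟨F, hFne, fun U hU => ?_, ?_⟩
  · obtain ⟨hUk, -⟩ := (hF U).1 hU
    exact ⟨fun h => by rw [h, finrank_bot] at hUk; omega,
      fun h => by rw [h, finrank_top] at hUk; omega⟩
  have hm : Measurable fun p : (E →L[ℝ] E) × Sph E => act p.1 p.2 :=
    measurable_act_pair measurable_fst measurable_snd
  have hclosed : IsClosed (unitDet E ∩ ⋂ U ∈ F, ⋃ W ∈ F, ⋂ w ∈ W,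
      (fun A : E →L[ℝ] E => A w) ⁻¹' (U : Set E)) :=
    isClosed_unitDet.inter <| isClosed_biInter fun U _ => isClosed_biUnion_finset fun W _ =>
      isClosed_biInter fun w _ =>
        U.closed_of_finiteDimensional.preimage (ContinuousLinearMap.apply ℝ E w).continuous
  have hdim : ∀ U : Submodule ℝ E, finrank ℝ U = k → ∀ A ∈ unitDet E,
      finrank ℝ (U.comap (A : E →ₗ[ℝ] E)) = k := fun U hU A hA => by
    rw [← hU]
    have hinj : Function.Injective (A : E →ₗ[ℝ] E) := injective_of_unitDet hA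
    rw [(Submodule.equivMapOfInjective (A : E →ₗ[ℝ] E) hinj _).finrank_eq,
      Submodule.map_comap_eq_of_surjective (LinearMap.injective_iff_surjective.1 hinj)]
  have hmem : ∀ U ∈ F, ∀ᵐ A : E →L[ℝ] E ∂μ, U.comap (A : E →ₗ[ℝ] E) ∈ F := fun U hU => by
    obtain ⟨hUk, hUm⟩ := (hF U).1 hU
    have hS : MeasurableSet {p : (E →L[ℝ] E) × Sph E | (act p.1 p.2 : E) ∈ U} :=
      hm (measurableSet_sphSet U)
    have hrec : mass ν U = ∫⁻ A, ν {v | (act A v : E) ∈ U} ∂μ := by
      conv_lhs => rw [mass, ← hν, stepLaw, Measure.map_apply hm (measurableSet_sphSet U),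
        Measure.prod_apply (hm (measurableSet_sphSet U))]
      rfl
    have hpre : ∀ A ∈ unitDet E,
        ν {v | (act A v : E) ∈ U} = mass ν (U.comap (A : E →ₗ[ℝ] E)) := fun A hA =>
      congrArg ν (Set.ext fun v => dir_mem_iff (apply_ne_zero hA (sph_ne_zero v)) U)
    have hle : (fun A : E →L[ℝ] E => ν {v | (act A v : E) ∈ U}) ≤ᵐ[μ] fun _ => m :=
      hμ.mono fun A hA => (hpre A hA).le.trans (hmax _ (hdim U hUk A hA))
    have heq := ae_eq_of_ae_le_of_lintegral_le hle (by rw [← hrec, hUm]; exact hmtop)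
      aemeasurable_const (by rw [← hrec, hUm, lintegral_const, measure_univ, mul_one])
    filter_upwards [heq, hμ] with A hA hA1
    exact (hF _).2 ⟨hdim U hUk A hA1, (hpre A hA1).symm.trans hA⟩
  have hae : (unitDet E ∩ ⋂ U ∈ F, ⋃ W ∈ F, ⋂ w ∈ W,
      (fun A : E →L[ℝ] E => A w) ⁻¹' (U : Set E)) ∈ ae μ := by
    refine inter_mem hμ ((biInter_finset_mem F).2 fun U hU => (hmem U hU).mono fun A hA => ?_)
    exact mem_iUnion₂.2 ⟨_, hA, mem_iInter₂.2 fun w hw => hw⟩
  intro A hA W hW
  obtain ⟨hA1, hAi⟩ := Measure.support_subset_of_isClosed hclosed hae hA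
  rw [mem_iInter₂] at hAi
  have hex' : ∀ U : F, ∃ V : F, (V : Submodule ℝ E).map (A : E →ₗ[ℝ] E) = U := fun U => by
    obtain ⟨V, hV, hAV⟩ := mem_iUnion₂.1 (hAi U.1 U.2)
    refine ⟨⟨V, hV⟩, Submodule.eq_of_le_of_finrank_le (Submodule.map_le_iff_le_comap.2
      fun w hw => mem_iInter₂.1 hAV w hw) ?_⟩
    rw [((hF U.1).1 U.2).1, ← ((hF V).1 hV).1]
    exact (Submodule.equivMapOfInjective _ (injective_of_unitDet hA1) V).finrank_eq.le
  choose back hback using hex'
  have hinj : Function.Injective back := fun U U' h =>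
    Subtype.ext (((hback U).symm.trans (by rw [h])).trans (hback U'))
  obtain ⟨U, hU⟩ := (Finite.injective_iff_surjective.1 hinj) ⟨W, hW⟩
  have := hback U
  rw [hU] at this
  rw [this]
  exact U.2

/-! ### The averaging operator -/

omit [FiniteDimensional ℝ E] [MeasurableSpace E] [BorelSpace E] [Nontrivial E]
  [IsProbabilityMeasure μ] in
theorem continuous_avgFun {φ : (E →L[ℝ] E) → Sph E → ℝ} (hμ : ∀ᵐ A ∂μ, A ∈ unitDet E)
    (hφm : ∀ v, AEStronglyMeasurable (fun A => φ A v) μ)
    (hφc : ∀ A ∈ unitDet E, Continuous (φ A)) {bound : (E →L[ℝ] E) → ℝ}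
    (hb : Integrable bound μ) (hbd : ∀ v, ∀ᵐ A ∂μ, ‖φ A v‖ ≤ bound A) :
    Continuous fun v => ∫ A, φ A v ∂μ :=
  continuous_of_dominated hφm hbd hb (hμ.mono fun A hA => hφc A hA)

variable {μ} in
/-- The averaging operator of the walk. -/
def stepOp (hμ : ∀ᵐ A ∂μ, A ∈ unitDet E) (φ : Sph E →ᵇ ℝ) : Sph E →ᵇ ℝ :=
  BoundedContinuousFunction.mkOfCompact ⟨fun v => ∫ A, φ (act A v) ∂μ,
    continuous_avgFun μ hμ
      (fun _ => (φ.continuous.measurable.comp (measurable_act_pair measurable_id
        measurable_const)).aestronglyMeasurable)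
      (fun _ hA => φ.continuous.comp (continuous_act hA))
      (integrable_const ‖φ‖) fun _ => .of_forall fun _ => φ.norm_coe_le_norm _⟩

theorem stepOp_apply (hμ : ∀ᵐ A ∂μ, A ∈ unitDet E) (φ : Sph E →ᵇ ℝ) (v : Sph E) :
    stepOp hμ φ v = ∫ A, φ (act A v) ∂μ := rfl

theorem integral_stepLaw (hμ : ∀ᵐ A ∂μ, A ∈ unitDet E) (φ : Sph E →ᵇ ℝ) (ν : Measure (Sph E))
    [IsProbabilityMeasure ν] : ∫ v, φ v ∂(stepLaw μ ν) = ∫ v, stepOp hμ φ v ∂ν := by
  have hm : Measurable fun p : (E →L[ℝ] E) × Sph E => act p.1 p.2 :=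
    measurable_act_pair measurable_fst measurable_snd
  rw [stepLaw, integral_map hm.aemeasurable φ.continuous.aestronglyMeasurable,
    integral_prod_symm (fun p : (E →L[ℝ] E) × Sph E => φ (act p.1 p.2)) (Integrable.of_bound
      (φ.continuous.measurable.comp hm).aestronglyMeasurable ‖φ‖
      (.of_forall fun _ => φ.norm_coe_le_norm _))]
  rfl

theorem isProbabilityMeasure_stepLaw_iterate (ν : Measure (Sph E)) [IsProbabilityMeasure ν]
    (j : ℕ) : IsProbabilityMeasure ((stepLaw μ)^[j] ν) := by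
  induction j with
  | zero => assumption
  | succ j ih => rw [Function.iterate_succ_apply']; exact isProbabilityMeasure_stepLaw μ _

theorem integral_stepLaw_iterate (hμ : ∀ᵐ A ∂μ, A ∈ unitDet E) (ν : Measure (Sph E))
    [IsProbabilityMeasure ν] (j : ℕ) (φ : Sph E →ᵇ ℝ) :
    ∫ v, φ v ∂((stepLaw μ)^[j] ν) = ∫ v, (stepOp hμ)^[j] φ v ∂ν := by
  induction j generalizing φ with
  | zero => rfl
  | succ j ih =>
    have := isProbabilityMeasure_stepLaw_iterate μ ν j
    rw [Function.iterate_succ_apply', integral_stepLaw μ hμ φ, ih, ← Function.iterate_succ_apply]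

end FA.FurstenbergKifer
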